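/-
S12 (track ISOG), package (P7) CHAIN-ABS (helper5), part 1: elementary facts on `p`-power torsion.

`mz2cTor T p n = T[p^n]`; under `card T[p^n] = p^(2n)` multiplication by `p` maps `T[p^(n+1)]` ONTO
`T[p^n]`; cyclic `p`-groups `⟨g⟩` inside `T`.
-/
import Mathlib

set_option autoImplicit false
set_option linter.unusedSectionVars false
set_option linter.style.haveILetI false

namespace Fermat.Agent.Mazur2

section Tor

variable (T : Type*) [AddCommGroup T] (p : ℕ)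

/-- the `p ^ n`-torsion subgroup -/
def mz2cTor (n : ℕ) : AddSubgroup T := (nsmulAddMonoidHom (p ^ n) : T →+ T).ker

variable {T p}

theorem mem_mz2cTor {n : ℕ} {x : T} : x ∈ mz2cTor T p n ↔ p ^ n • x = 0 := by
  rw [mz2cTor, AddMonoidHom.mem_ker, nsmulAddMonoidHom_apply]

theorem mz2cTor_zero : mz2cTor T p 0 = ⊥ := by
  ext x
  rw [mem_mz2cTor, pow_zero, one_smul, AddSubgroup.mem_bot]

theorem mem_mz2cTor_one {x : T} : x ∈ mz2cTor T p 1 ↔ p • x = 0 := by
  rw [mem_mz2cTor, pow_one]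

theorem mem_mz2cTor_succ {n : ℕ} {x : T} : x ∈ mz2cTor T p (n + 1) ↔ p • x ∈ mz2cTor T p n := by
  rw [mem_mz2cTor, mem_mz2cTor, pow_succ, mul_smul]

theorem mz2cTor_mono {m n : ℕ} (h : m ≤ n) : mz2cTor T p m ≤ mz2cTor T p n := by
  intro x hx
  rw [mem_mz2cTor] at hx ⊢
  obtain ⟨d, rfl⟩ := Nat.exists_eq_add_of_le h
  rw [pow_add, mul_comm, mul_smul, hx, smul_zero]

theorem mz2c_pow_smul_mem {m n : ℕ} {x : T} (hx : x ∈ mz2cTor T p (m + n)) :
    p ^ m • x ∈ mz2cTor T p n := by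
  rw [mem_mz2cTor] at hx ⊢
  rw [← mul_smul, ← pow_add, add_comm]
  exact hx

theorem mz2c_smul_mem_tor {M : Type*} [Monoid M] [DistribMulAction M T] (σ : M) {n : ℕ} {x : T}
    (hx : x ∈ mz2cTor T p n) : σ • x ∈ mz2cTor T p n := by
  rw [mem_mz2cTor] at hx ⊢
  rw [← smul_zero σ, ← hx]
  exact (map_nsmul (DistribSMul.toAddMonoidHom T σ) (p ^ n) x).symm

/-- multiplication by `p` from `T[p^(n+1)]` to `T[p^n]` -/
def mz2cMulP (T : Type*) [AddCommGroup T] (p n : ℕ) :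
    ↥(mz2cTor T p (n + 1)) →+ ↥(mz2cTor T p n) where
  toFun x := ⟨p • (x : T), mem_mz2cTor_succ.mp x.2⟩
  map_zero' := by
    ext
    simp
  map_add' x y := by
    ext
    simp

theorem coe_mz2cMulP {n : ℕ} (x : ↥(mz2cTor T p (n + 1))) :
    ((mz2cMulP T p n x : ↥(mz2cTor T p n)) : T) = p • (x : T) := rfl

/-- under the count `card T[p^n] = p^(2n)`, multiplication by `p` is onto -/
theorem mz2cMulP_surjective [hp : Fact p.Prime]
    (hcard : ∀ n, Nat.card ↥(mz2cTor T p n) = p ^ (2 * n)) (n : ℕ) :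
    Function.Surjective (mz2cMulP T p n) := by
  have hp0 : p ≠ 0 := hp.out.ne_zero
  haveI hfin : ∀ m, Finite ↥(mz2cTor T p m) := fun m =>
    Nat.finite_of_card_ne_zero (by rw [hcard]; exact pow_ne_zero _ hp0)
  -- the kernel is `T[p]`
  have hker : Nat.card ↥(mz2cMulP T p n).ker = p ^ 2 := by
    have h1 := hcard 1
    rw [mul_one] at h1
    rw [← h1]
    refine Nat.card_congr ⟨fun x => ⟨((x : ↥(mz2cTor T p (n + 1))) : T), ?_⟩,
      fun y => ⟨⟨(y : T), mz2cTor_mono (by omega) y.2⟩, ?_⟩, ?_, ?_⟩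
    · rw [mem_mz2cTor_one]
      have h2 := x.2
      rw [AddMonoidHom.mem_ker] at h2
      have h3 := congrArg (Subtype.val) h2
      rw [coe_mz2cMulP] at h3
      exact h3
    · rw [AddMonoidHom.mem_ker]
      ext
      rw [coe_mz2cMulP]
      exact mem_mz2cTor_one.mp y.2
    · intro x
      rfl
    · intro y
      rfl
  have h2 : Nat.card ↥(mz2cMulP T p n).ker * (mz2cMulP T p n).ker.index =
      Nat.card ↥(mz2cTor T p (n + 1)) := AddSubgroup.card_mul_index _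
  rw [AddSubgroup.index_ker, hker, hcard] at h2
  have h3 : Nat.card ↥(mz2cMulP T p n).range = p ^ (2 * n) := by
    have : p ^ 2 * Nat.card ↥(mz2cMulP T p n).range = p ^ 2 * p ^ (2 * n) := by
      rw [h2, ← pow_add]
      congr 1
      ring
    exact Nat.eq_of_mul_eq_mul_left (pow_pos hp.out.pos 2) this
  have h4 : (mz2cMulP T p n).range = ⊤ := by
    rw [← AddSubgroup.card_eq_iff_eq_top, h3, hcard]
  exact AddMonoidHom.range_eq_top.mp h4

theorem mz2c_exists_smul_eq [hp : Fact p.Prime]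
    (hcard : ∀ n, Nat.card ↥(mz2cTor T p n) = p ^ (2 * n)) {n : ℕ} {y : T}
    (hy : y ∈ mz2cTor T p n) : ∃ x ∈ mz2cTor T p (n + 1), p • x = y := by
  obtain ⟨x, hx⟩ := mz2cMulP_surjective hcard n ⟨y, hy⟩
  exact ⟨x, x.2, congrArg Subtype.val hx⟩

end Tor

section Cyclic

variable {T : Type*} [AddCommGroup T] {p : ℕ} [hp : Fact p.Prime]

/-- `c • g = 0` iff `p ^ m ∣ c` -/
theorem mz2c_nsmul_eq_zero_iff {g : T} {m : ℕ} (hg : addOrderOf g = p ^ m) (c : ℕ) :
    c • g = 0 ↔ p ^ m ∣ c := by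
  rw [← hg]
  exact addOrderOf_dvd_iff_nsmul_eq_zero.symm

/-- every element of `⟨g⟩` is a natural multiple of `g` (finite order) -/
theorem mz2c_mem_zmultiples_iff {g : T} {m : ℕ} (hg : addOrderOf g = p ^ m) {x : T} :
    x ∈ AddSubgroup.zmultiples g ↔ ∃ c : ℕ, x = c • g := by
  constructor
  · intro hx
    obtain ⟨k, rfl⟩ := AddSubgroup.mem_zmultiples_iff.mp hx
    have hpos : (0 : ℤ) < (addOrderOf g : ℤ) := by
      rw [hg]
      exact_mod_cast pow_pos hp.out.pos m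
    refine ⟨(k % (addOrderOf g : ℤ)).toNat, ?_⟩
    rw [← natCast_zsmul, Int.toNat_of_nonneg (Int.emod_nonneg _ hpos.ne'), mod_addOrderOf_zsmul]
  · rintro ⟨c, rfl⟩
    exact AddSubgroup.nsmul_mem_zmultiples g c

theorem mz2c_card_zmultiples {g : T} {m : ℕ} (hg : addOrderOf g = p ^ m) :
    Nat.card ↥(AddSubgroup.zmultiples g) = p ^ m := by
  rw [Nat.card_zmultiples, hg]

/-- an element `c • g` with `p ∤ c` generates `⟨g⟩` -/
theorem mz2c_mem_zmultiples_of_not_dvd {g : T} {m : ℕ} (hg : addOrderOf g = p ^ m) {c : ℕ}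
    (hc : ¬ p ∣ c) : g ∈ AddSubgroup.zmultiples (c • g) := by
  have hcop : Nat.Coprime c (p ^ m) :=
    Nat.Coprime.pow_right m ((Nat.Prime.coprime_iff_not_dvd hp.out).mpr hc).symm
  obtain ⟨a, b, hab⟩ := Nat.isCoprime_iff_coprime.mpr hcop
  have hn : ((p ^ m : ℕ) : ℤ) • g = 0 := by
    rw [natCast_zsmul, ← hg]
    exact addOrderOf_nsmul_eq_zero g
  have h1 : g = a • (c • g) := by
    calc g = (1 : ℤ) • g := (one_smul _ _).symm
      _ = (a * (c : ℤ) + b * ((p ^ m : ℕ) : ℤ)) • g := by rw [hab]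
      _ = a • (c • g) := by
        rw [add_smul, mul_smul, mul_smul, hn, smul_zero, add_zero, natCast_zsmul]
  have h2 := AddSubgroup.zsmul_mem_zmultiples (c • g) a
  rwa [← h1] at h2

/-- the elements of `⟨g⟩` killed by `p ^ j`, `j < m`, are multiples of `p` -/
theorem mz2c_exists_smul_of_mem_tor {g : T} {m : ℕ} (hg : addOrderOf g = p ^ m) {j : ℕ} (hj : j < m)
    {x : T} (hx : x ∈ AddSubgroup.zmultiples g) (hxj : x ∈ mz2cTor T p j) :
    ∃ z ∈ AddSubgroup.zmultiples g, x = p • z := by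
  obtain ⟨c, rfl⟩ := (mz2c_mem_zmultiples_iff hg).mp hx
  rw [mem_mz2cTor, ← mul_smul, mz2c_nsmul_eq_zero_iff hg] at hxj
  have hpc : p ∣ c := by
    obtain ⟨d, rfl⟩ := Nat.exists_eq_add_of_lt hj
    have h1 : p ^ j * p ∣ p ^ j * c := by
      refine dvd_trans ?_ hxj
      rw [show j + d + 1 = j + 1 + d by ring, pow_add, pow_succ]
      exact dvd_mul_right _ _
    exact Nat.dvd_of_mul_dvd_mul_left (pow_pos hp.out.pos j) h1
  obtain ⟨e, rfl⟩ := hpc
  exact ⟨e • g, AddSubgroup.nsmul_mem_zmultiples g e, by rw [mul_smul]⟩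

/-- the `p`-torsion of `⟨g⟩`, `g` of order `p ^ (k+1)`, is `⟨p ^ k • g⟩` -/
theorem mz2c_mem_zmultiples_pow_of_mem_tor_one {g : T} {k : ℕ} (hg : addOrderOf g = p ^ (k + 1))
    {x : T} (hx : x ∈ AddSubgroup.zmultiples g) (hx1 : x ∈ mz2cTor T p 1) :
    x ∈ AddSubgroup.zmultiples (p ^ k • g) := by
  obtain ⟨c, rfl⟩ := (mz2c_mem_zmultiples_iff hg).mp hx
  rw [mem_mz2cTor_one, ← mul_smul, mz2c_nsmul_eq_zero_iff hg, pow_succ, mul_comm] at hx1
  have hpc : p ^ k ∣ c := Nat.dvd_of_mul_dvd_mul_left hp.out.pos hx1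
  obtain ⟨e, rfl⟩ := hpc
  rw [mul_comm, mul_smul]
  exact AddSubgroup.nsmul_mem_zmultiples _ e

theorem mz2c_addOrderOf_pow_smul {g : T} {k : ℕ} (hg : addOrderOf g = p ^ (k + 1)) :
    addOrderOf (p ^ k • g) = p := by
  have h1 : p • (p ^ k • g) = 0 := by
    rw [← mul_smul, ← pow_succ', ← hg]
    exact addOrderOf_nsmul_eq_zero g
  have h2 : p ^ k • g ≠ 0 := by
    intro h
    rw [mz2c_nsmul_eq_zero_iff hg] at h
    have := Nat.le_of_dvd (pow_pos hp.out.pos k) h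
    have h3 : p ^ k < p ^ (k + 1) := Nat.pow_lt_pow_right hp.out.one_lt (Nat.lt_succ_self k)
    omega
  exact addOrderOf_eq_prime h1 h2

theorem mz2c_addOrderOf_smul {g : T} {k : ℕ} (hg : addOrderOf g = p ^ (k + 1)) :
    addOrderOf (p • g) = p ^ k := by
  have h : addOrderOf (p • g) = addOrderOf g / p :=
    addOrderOf_nsmul_of_dvd hp.out.ne_zero (by rw [hg]; exact dvd_pow_self p (Nat.succ_ne_zero k))
  rw [hg, pow_succ, Nat.mul_div_cancel _ hp.out.pos] at h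
  exact h

/-- a subgroup of order `p` inside `⟨g⟩` is `⟨p ^ k • g⟩` -/
theorem mz2c_eq_zmultiples_pow {g : T} {k : ℕ} (hg : addOrderOf g = p ^ (k + 1))
    (N : AddSubgroup T) (hN : N ≤ AddSubgroup.zmultiples g) (hN1 : N ≤ mz2cTor T p 1)
    (hcard : Nat.card ↥N = p) : N = AddSubgroup.zmultiples (p ^ k • g) := by
  have hle : N ≤ AddSubgroup.zmultiples (p ^ k • g) := fun x hx =>
    mz2c_mem_zmultiples_pow_of_mem_tor_one hg (hN hx) (hN1 hx)
  have hfin : Finite ↥(AddSubgroup.zmultiples (p ^ k • g)) :=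
    Nat.finite_of_card_ne_zero (by
      rw [Nat.card_zmultiples, mz2c_addOrderOf_pow_smul hg]
      exact hp.out.ne_zero)
  refine AddSubgroup.eq_of_le_of_card_ge hle ?_
  rw [hcard, Nat.card_zmultiples, mz2c_addOrderOf_pow_smul hg]

end Cyclic

end Fermat.Agent.Mazur2
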