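/-
S12 (track ISOG), package (P7) CHAIN-ABS (helper5), part 2: **S14 in the language of subgroups**.

`T` an abelian group with an action of `G_ℚ`, `N ≤ C₀ ≤ M` Galois-stable subgroups with `p M ≤ N`,
`|M / N| = p²`, `N ≠ C₀ ≠ M`, trivial action on `C₀ / N`, cyclotomic action on `M / C₀`,
`M / N` unramified outside `p` and locally split at `p`:  then (`ExtVanishingCts p`, = S14) there is
a Galois-stable subgroup `N ≤ X ≤ M` with `X ∩ C₀ = N`, `X + C₀ = M`, `X / N` of order `p`.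

The quotient `V = M / N` with its `ZMod p`-module structure and its Galois action is built here
(`Mz2cPair.V`); nothing about it is exported.
-/
import Fermat.Agent.Lib.Mazur2.Chain.Group
import Fermat.Prelude.Def_ExtCitation_AdmissibleExtension_v2

set_option autoImplicit false
set_option linter.unusedSectionVars false
set_option linter.style.haveILetI false
set_option linter.unusedVariables false

noncomputable section

namespace Fermat.Agent.Mazur2

local notation "Qb" => AlgebraicClosure ℚ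
local notation "GQ" => (AlgebraicClosure ℚ ≃ₐ[ℚ] AlgebraicClosure ℚ)

/-- a pair `N ≤ M` of Galois-stable subgroups with `p • M ≤ N` -/
structure Mz2cPair (p : ℕ) (T : Type) [AddCommGroup T] [DistribMulAction GQ T] where
  M : AddSubgroup T
  N : AddSubgroup T
  le : N ≤ M
  stableM : ∀ σ : GQ, ∀ x ∈ M, σ • x ∈ M
  stableN : ∀ σ : GQ, ∀ x ∈ N, σ • x ∈ N
  smul_mem : ∀ x ∈ M, p • x ∈ N

namespace Mz2cPair

variable {p : ℕ} {T : Type} [AddCommGroup T] [DistribMulAction GQ T] (P : Mz2cPair p T)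

/-- the quotient `M / N` -/
def V : Type := ↥P.M ⧸ P.N.addSubgroupOf P.M

instance : AddCommGroup P.V := inferInstanceAs (AddCommGroup (↥P.M ⧸ P.N.addSubgroupOf P.M))

/-- the class of an element of `M` -/
def cls (x : T) (hx : x ∈ P.M) : P.V := QuotientAddGroup.mk (⟨x, hx⟩ : ↥P.M)

theorem cls_surjective (v : P.V) : ∃ x, ∃ hx : x ∈ P.M, P.cls x hx = v := by
  obtain ⟨⟨x, hx⟩, rfl⟩ := QuotientAddGroup.mk_surjective v
  exact ⟨x, hx, rfl⟩

theorem cls_eq_zero_iff {x : T} (hx : x ∈ P.M) : P.cls x hx = 0 ↔ x ∈ P.N := by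
  show ((⟨x, hx⟩ : ↥P.M) : ↥P.M ⧸ P.N.addSubgroupOf P.M) = 0 ↔ x ∈ P.N
  rw [QuotientAddGroup.eq_zero_iff, AddSubgroup.mem_addSubgroupOf]

theorem cls_add {x y : T} (hx : x ∈ P.M) (hy : y ∈ P.M) :
    P.cls (x + y) (P.M.add_mem hx hy) = P.cls x hx + P.cls y hy := rfl

theorem cls_sub {x y : T} (hx : x ∈ P.M) (hy : y ∈ P.M) :
    P.cls (x - y) (P.M.sub_mem hx hy) = P.cls x hx - P.cls y hy := rfl

theorem cls_zero : P.cls 0 P.M.zero_mem = 0 := rfl

theorem cls_congr {x y : T} (h : x = y) (hx : x ∈ P.M) (hy : y ∈ P.M) : P.cls x hx = P.cls y hy := by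
  subst h
  rfl

theorem cls_nsmul {x : T} (hx : x ∈ P.M) (n : ℕ) :
    P.cls (n • x) (P.M.nsmul_mem hx n) = n • P.cls x hx := rfl

theorem cls_eq_cls_iff {x y : T} (hx : x ∈ P.M) (hy : y ∈ P.M) :
    P.cls x hx = P.cls y hy ↔ x - y ∈ P.N := by
  rw [← sub_eq_zero, ← cls_sub, cls_eq_zero_iff]

/-- the action of `σ` on `M` -/
def actM (σ : GQ) : ↥P.M →+ ↥P.M where
  toFun x := ⟨σ • (x : T), P.stableM σ x x.2⟩
  map_zero' := Subtype.ext (smul_zero σ)
  map_add' x y := Subtype.ext (smul_add σ _ _)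

/-- the action of `σ` on `M / N` -/
def actV (σ : GQ) : P.V →+ P.V :=
  QuotientAddGroup.map _ _ (P.actM σ) (by
    intro x hx
    rw [AddSubgroup.mem_comap, AddSubgroup.mem_addSubgroupOf]
    rw [AddSubgroup.mem_addSubgroupOf] at hx
    exact P.stableN σ x hx)

theorem actV_cls (σ : GQ) {x : T} (hx : x ∈ P.M) :
    P.actV σ (P.cls x hx) = P.cls (σ • x) (P.stableM σ x hx) := rfl

instance : DistribMulAction GQ P.V where
  smul σ v := P.actV σ v
  one_smul v := by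
    obtain ⟨x, hx, rfl⟩ := P.cls_surjective v
    show P.actV 1 (P.cls x hx) = P.cls x hx
    rw [actV_cls]
    exact P.cls_congr (one_smul _ x) _ _
  mul_smul σ τ v := by
    obtain ⟨x, hx, rfl⟩ := P.cls_surjective v
    show P.actV (σ * τ) (P.cls x hx) = P.actV σ (P.actV τ (P.cls x hx))
    rw [actV_cls, actV_cls, actV_cls]
    exact P.cls_congr (mul_smul σ τ x) _ _
  smul_zero σ := map_zero (P.actV σ)
  smul_add σ v w := map_add (P.actV σ) v w

theorem smul_cls (σ : GQ) {x : T} (hx : x ∈ P.M) :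
    σ • P.cls x hx = P.cls (σ • x) (P.stableM σ x hx) := rfl

theorem nsmul_eq_zero (v : P.V) : p • v = 0 := by
  obtain ⟨x, hx, rfl⟩ := P.cls_surjective v
  rw [← cls_nsmul, cls_eq_zero_iff]
  exact P.smul_mem x hx

instance : Module (ZMod p) P.V := AddCommGroup.zmodModule P.nsmul_eq_zero

theorem zmod_smul_eq [NeZero p] (c : ZMod p) (v : P.V) : c • v = c.val • v := by
  conv_lhs => rw [← ZMod.natCast_zmod_val c]
  exact Nat.cast_smul_eq_nsmul (ZMod p) c.val v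

variable [hp : Fact p.Prime]

instance : SMulCommClass GQ (ZMod p) P.V where
  smul_comm σ c v := by
    haveI : NeZero p := ⟨hp.out.ne_zero⟩
    rw [zmod_smul_eq, zmod_smul_eq]
    exact smul_comm σ c.val v

theorem natCast_smul_cls (c : ℕ) {x : T} (hx : x ∈ P.M) :
    ((c : ZMod p)) • P.cls x hx = P.cls (c • x) (P.M.nsmul_mem hx c) := by
  rw [Nat.cast_smul_eq_nsmul, cls_nsmul]

/-- the submodule of `M / N` attached to a subgroup of `T` -/
def toSub (X : AddSubgroup T) : Submodule (ZMod p) P.V where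
  carrier := {v | ∃ x, ∃ hx : x ∈ P.M, x ∈ X ∧ P.cls x hx = v}
  zero_mem' := ⟨0, P.M.zero_mem, X.zero_mem, rfl⟩
  add_mem' := by
    rintro _ _ ⟨x, hx, hxX, rfl⟩ ⟨y, hy, hyX, rfl⟩
    exact ⟨x + y, P.M.add_mem hx hy, X.add_mem hxX hyX, rfl⟩
  smul_mem' := by
    rintro c _ ⟨x, hx, hxX, rfl⟩
    haveI : NeZero p := ⟨hp.out.ne_zero⟩
    refine ⟨c.val • x, P.M.nsmul_mem hx _, X.nsmul_mem hxX _, ?_⟩
    rw [zmod_smul_eq, cls_nsmul]

theorem mem_toSub {X : AddSubgroup T} {v : P.V} :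
    v ∈ P.toSub X ↔ ∃ x, ∃ hx : x ∈ P.M, x ∈ X ∧ P.cls x hx = v := Iff.rfl

theorem cls_mem_toSub {X : AddSubgroup T} {x : T} (hx : x ∈ P.M) (hxX : x ∈ X) :
    P.cls x hx ∈ P.toSub X := ⟨x, hx, hxX, rfl⟩

theorem cls_mem_toSub_iff {X : AddSubgroup T} (hNX : P.N ≤ X) {x : T} (hx : x ∈ P.M) :
    P.cls x hx ∈ P.toSub X ↔ x ∈ X := by
  constructor
  · rintro ⟨y, hy, hyX, h⟩
    rw [cls_eq_cls_iff] at h
    have : x = y - (y - x) := by abel
    rw [this]
    exact X.sub_mem hyX (hNX h)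
  · exact fun h => P.cls_mem_toSub hx h

/-- the subgroup of `T` attached to a submodule of `M / N` -/
def ofSub (C : Submodule (ZMod p) P.V) : AddSubgroup T where
  carrier := {x | ∃ hx : x ∈ P.M, P.cls x hx ∈ C}
  zero_mem' := ⟨P.M.zero_mem, by rw [cls_zero]; exact C.zero_mem⟩
  add_mem' := by
    rintro x y ⟨hx, hxC⟩ ⟨hy, hyC⟩
    exact ⟨P.M.add_mem hx hy, by rw [P.cls_add hx hy]; exact C.add_mem hxC hyC⟩
  neg_mem' := by
    rintro x ⟨hx, hxC⟩
    refine ⟨P.M.neg_mem hx, ?_⟩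
    have : P.cls (-x) (P.M.neg_mem hx) = - P.cls x hx := rfl
    rw [this]
    exact C.neg_mem hxC

theorem mem_ofSub {C : Submodule (ZMod p) P.V} {x : T} :
    x ∈ P.ofSub C ↔ ∃ hx : x ∈ P.M, P.cls x hx ∈ C := Iff.rfl

end Mz2cPair

section Split

variable {p : ℕ} [hp : Fact p.Prime] {T : Type} [AddCommGroup T] [DistribMulAction GQ T]

/-- linear algebra: in a plane over `ZMod p`, a line and a nonzero subspace meeting it trivially
are complementary -/
theorem mz2c_isCompl_of_disjoint {V : Type*} [AddCommGroup V] [Module (ZMod p) V]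
    [Module.Finite (ZMod p) V] (hV : Module.finrank (ZMod p) V = 2)
    {C C' : Submodule (ZMod p) V} (hC : Module.finrank (ZMod p) C = 1) (hdis : Disjoint C C')
    (hC' : C' ≠ ⊥) : IsCompl C C' := by
  refine ⟨hdis, ?_⟩
  rw [codisjoint_iff]
  apply Submodule.eq_top_of_finrank_eq
  have h1 := Submodule.finrank_sup_add_finrank_inf_eq C C'
  rw [disjoint_iff.mp hdis, finrank_bot, add_zero, hC] at h1
  have h2 : 0 < Module.finrank (ZMod p) C' := by
    rw [Module.finrank_pos_iff_exists_ne_zero]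
    obtain ⟨v, hv, hv0⟩ := (Submodule.ne_bot_iff C').mp hC'
    exact ⟨⟨v, hv⟩, fun h => hv0 (congrArg Subtype.val h)⟩
  have h3 : Module.finrank (ZMod p) ↥(C ⊔ C') ≤ Module.finrank (ZMod p) V :=
    Submodule.finrank_le _
  omega

/-- **S14 in the language of subgroups** -/
theorem mz2c_split (hS14 : ExtCitation.ExtVanishingCts p)
    (P : Mz2cPair p T) (C₀ : AddSubgroup T) (hNC : P.N ≤ C₀) (hCM : C₀ ≤ P.M)
    (hC₀ : ∀ σ : GQ, ∀ x ∈ C₀, σ • x ∈ C₀)
    [Finite ↥P.M] (hcard : Nat.card ↥P.M = p ^ 2 * Nat.card ↥P.N)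
    (hC1 : ∃ x ∈ C₀, x ∉ P.N) (hC2 : ∃ x ∈ P.M, x ∉ C₀)
    (hfix : ∀ σ : GQ, ∀ x ∈ C₀, σ • x - x ∈ P.N)
    (hcyc : ∀ σ : GQ, ∀ x ∈ P.M, σ • x - ExtCitation.cycloExp p σ • x ∈ C₀)
    (hunr : ∀ ℓ : ℕ, ℓ.Prime → ℓ ≠ p → ∀ A : ValuationSubring Qb, A.LiesOverPrime ℓ →
      ∀ σ ∈ A.inertiaSubgroupIn ℚ, ∀ x ∈ P.M, σ • x - x ∈ P.N)
    (hloc : ∀ A : ValuationSubring Qb, A.LiesOverPrime p → ∃ X₁ : AddSubgroup T,
      P.N ≤ X₁ ∧ X₁ ≤ P.M ∧ (∀ σ ∈ A.decompositionSubgroup ℚ, ∀ x ∈ X₁, σ • x ∈ X₁) ∧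
      (∀ x ∈ X₁, x ∈ C₀ → x ∈ P.N) ∧ ∃ x ∈ X₁, x ∉ P.N)
    (hopen : ∀ x ∈ P.M, IsOpen {σ : GQ | σ • x = x}) :
    ∃ X : AddSubgroup T, P.N ≤ X ∧ X ≤ P.M ∧ (∀ σ : GQ, ∀ x ∈ X, σ • x ∈ X) ∧
      (∀ x ∈ X, x ∈ C₀ → x ∈ P.N) ∧ (∃ y ∈ X, y ∉ P.N) ∧
      (∀ m ∈ P.M, ∃ x ∈ X, m - x ∈ C₀) ∧
      (∀ x ∈ X, ∀ y ∈ X, y ∉ P.N → ∃ c : ℕ, x - c • y ∈ P.N) := by
  classical
  haveI : NeZero p := ⟨hp.out.ne_zero⟩
  have hp0 : p ≠ 0 := hp.out.ne_zero
  -- cardinalities
  haveI hfinN : Finite ↥P.N := Finite.of_injective (fun x : ↥P.N => (⟨x.1, P.le x.2⟩ : ↥P.M))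
    (fun x y h => Subtype.ext (congrArg (fun z : ↥P.M => (z : T)) h))
  have hNpos : 0 < Nat.card ↥P.N := Nat.card_pos
  have hcardV : Nat.card P.V = p ^ 2 := by
    have h1 : Nat.card ↥P.M = Nat.card P.V * Nat.card ↥(P.N.addSubgroupOf P.M) :=
      AddSubgroup.card_eq_card_quotient_mul_card_addSubgroup _
    have h2 : Nat.card ↥(P.N.addSubgroupOf P.M) = Nat.card ↥P.N :=
      Nat.card_congr (AddSubgroup.addSubgroupOfEquivOfLe P.le).toEquiv
    rw [h2, hcard] at h1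
    exact (Nat.eq_of_mul_eq_mul_right hNpos h1).symm
  haveI hfinV : Finite P.V := Nat.finite_of_card_ne_zero (by rw [hcardV]; exact pow_ne_zero _ hp0)
  haveI : Module.Finite (ZMod p) P.V := Module.Finite.of_finite
  have hrankV : Module.finrank (ZMod p) P.V = 2 := by
    have h := Module.natCard_eq_pow_finrank (K := ZMod p) (V := P.V)
    rw [hcardV, Nat.card_zmod] at h
    exact (Nat.pow_right_injective hp.out.two_le h).symm
  -- the line `C`
  set C : Submodule (ZMod p) P.V := P.toSub C₀ with hC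
  have hCbot : C ≠ ⊥ := by
    obtain ⟨x, hx, hxN⟩ := hC1
    intro h
    have h1 : P.cls x (hCM hx) ∈ C := P.cls_mem_toSub (hCM hx) hx
    rw [h, Submodule.mem_bot, P.cls_eq_zero_iff] at h1
    exact hxN h1
  have hCtop : C ≠ ⊤ := by
    obtain ⟨x, hx, hxC⟩ := hC2
    intro h
    have h1 : P.cls x hx ∈ C := by rw [h]; exact Submodule.mem_top
    rw [hC, P.cls_mem_toSub_iff hNC] at h1
    exact hxC h1
  have hrankC : Module.finrank (ZMod p) C = 1 := by
    have h1 : Module.finrank (ZMod p) C < Module.finrank (ZMod p) P.V :=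
      Submodule.finrank_lt hCtop
    have h2 : Module.finrank (ZMod p) C ≠ 0 := by
      intro h
      exact hCbot (Submodule.finrank_eq_zero.mp h)
    omega
  have hcardC : Nat.card C = p := by
    have h := Module.natCard_eq_pow_finrank (K := ZMod p) (V := C)
    rw [hrankC, Nat.card_zmod, pow_one] at h
    exact h
  -- admissibility
  have hadm : ExtCitation.IsAdmissibleExtensionCts p P.V C := by
    refine ⟨⟨?_, ?_, ?_, hcardC, hcardV, ?_, ?_⟩, ?_⟩
    · -- stable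
      rintro σ _ ⟨x, hx, hxC, rfl⟩
      rw [P.smul_cls]
      exact P.cls_mem_toSub _ (hC₀ σ x hxC)
    · -- fixed_sub
      rintro σ _ ⟨x, hx, hxC, rfl⟩
      rw [P.smul_cls, P.cls_eq_cls_iff]
      exact hfix σ x hxC
    · -- cyclo_quot
      intro σ v
      obtain ⟨x, hx, rfl⟩ := P.cls_surjective v
      rw [P.smul_cls, P.natCast_smul_cls, ← P.cls_sub]
      exact P.cls_mem_toSub _ (hcyc σ x hx)
    · -- unramified_outside
      intro ℓ hℓ hℓp A hA σ hσ v
      obtain ⟨x, hx, rfl⟩ := P.cls_surjective v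
      rw [P.smul_cls, P.cls_eq_cls_iff]
      exact hunr ℓ hℓ hℓp A hA σ hσ x hx
    · -- locally_split
      intro A hA
      obtain ⟨X₁, hNX, hXM, hXst, hXC, x₁, hx₁, hx₁N⟩ := hloc A hA
      refine ⟨P.toSub X₁, ?_, ?_⟩
      · rintro σ hσ _ ⟨x, hx, hxX, rfl⟩
        rw [P.smul_cls]
        exact P.cls_mem_toSub _ (hXst σ hσ x hxX)
      · apply mz2c_isCompl_of_disjoint hrankV hrankC
        · rw [Submodule.disjoint_def]
          rintro v ⟨x, hx, hxC, rfl⟩ hv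
          rw [P.cls_mem_toSub_iff hNX] at hv
          rw [P.cls_eq_zero_iff]
          exact hXC x hv hxC
        · intro h
          have h1 : P.cls x₁ (hXM hx₁) ∈ P.toSub X₁ := P.cls_mem_toSub _ hx₁
          rw [h, Submodule.mem_bot, P.cls_eq_zero_iff] at h1
          exact hx₁N h1
    · -- open_kernel
      let K : Subgroup GQ :=
        { carrier := {σ | ∀ v : P.V, σ • v = v}
          one_mem' := fun v => one_smul _ v
          mul_mem' := fun {a b} ha hb v => by rw [mul_smul, hb v, ha v]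
          inv_mem' := fun {a} ha v => by
            have := ha v
            rw [← this, inv_smul_smul, this] }
      have hK : IsOpen (K : Set GQ) := by
        apply Subgroup.isOpen_of_mem_nhds
        have hopen' : IsOpen (⋂ x : ↥P.M, {σ : GQ | σ • (x : T) = x}) :=
          isOpen_iInter_of_finite fun x => hopen x x.2
        have h1 : (1 : GQ) ∈ ⋂ x : ↥P.M, {σ : GQ | σ • (x : T) = x} := by
          rw [Set.mem_iInter]
          intro x
          exact one_smul _ _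
        refine Filter.mem_of_superset (hopen'.mem_nhds h1) ?_
        · intro σ hσ v
          rw [Set.mem_iInter] at hσ
          obtain ⟨x, hx, rfl⟩ := P.cls_surjective v
          rw [P.smul_cls]
          exact P.cls_congr (hσ ⟨x, hx⟩) _ _
      exact hK
  -- S14
  obtain ⟨C', hC'st, hcompl⟩ := hS14 P.V C hadm
  have hC'bot : C' ≠ ⊥ := by
    intro h
    apply hCtop
    have := hcompl.sup_eq_top
    rwa [h, sup_bot_eq] at this
  have hrankC' : Module.finrank (ZMod p) C' = 1 := by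
    have h1 := Submodule.finrank_add_eq_of_isCompl hcompl
    rw [hrankC, hrankV] at h1
    omega
  refine ⟨P.ofSub C', ?_, ?_, ?_, ?_, ?_, ?_, ?_⟩
  · intro x hx
    refine ⟨P.le hx, ?_⟩
    rw [(P.cls_eq_zero_iff (P.le hx)).mpr hx]
    exact C'.zero_mem
  · rintro x ⟨hx, -⟩
    exact hx
  · rintro σ x ⟨hx, hxC⟩
    refine ⟨P.stableM σ x hx, ?_⟩
    rw [← P.smul_cls σ hx]
    exact hC'st σ _ hxC
  · rintro x ⟨hx, hxC'⟩ hxC
    have h1 : P.cls x hx ∈ C := P.cls_mem_toSub hx hxC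
    have h2 := (Submodule.disjoint_def.mp hcompl.disjoint) _ h1 hxC'
    exact (P.cls_eq_zero_iff hx).mp h2
  · obtain ⟨v, hv, hv0⟩ := (Submodule.ne_bot_iff C').mp hC'bot
    obtain ⟨y, hy, rfl⟩ := P.cls_surjective v
    exact ⟨y, ⟨hy, hv⟩, fun h => hv0 ((P.cls_eq_zero_iff hy).mpr h)⟩
  · intro m hm
    have h1 : P.cls m hm ∈ C ⊔ C' := by
      rw [hcompl.sup_eq_top]
      exact Submodule.mem_top
    obtain ⟨c, hc, c', hc', hcc⟩ := Submodule.mem_sup.mp h1
    obtain ⟨x, hx, rfl⟩ := P.cls_surjective c'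
    refine ⟨x, ⟨hx, hc'⟩, ?_⟩
    have h2 : P.cls (m - x) (P.M.sub_mem hm hx) = c := by
      rw [P.cls_sub hm hx, ← hcc]
      abel
    have h3 : P.cls (m - x) (P.M.sub_mem hm hx) ∈ C := by rw [h2]; exact hc
    rwa [hC, P.cls_mem_toSub_iff hNC] at h3
  · rintro x ⟨hx, hxC⟩ y ⟨hy, hyC⟩ hyN
    have hy0 : (⟨P.cls y hy, hyC⟩ : C') ≠ 0 := by
      intro h
      exact hyN ((P.cls_eq_zero_iff hy).mp (congrArg Subtype.val h))
    obtain ⟨c, hc⟩ := (finrank_eq_one_iff_of_nonzero' (⟨P.cls y hy, hyC⟩ : C') hy0).mp hrankC'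
      ⟨P.cls x hx, hxC⟩
    refine ⟨c.val, ?_⟩
    have h1 : c • P.cls y hy = P.cls x hx := congrArg Subtype.val hc
    rw [← P.cls_eq_cls_iff hx (P.M.nsmul_mem hy _), P.cls_nsmul, ← h1, P.zmod_smul_eq]

end Split

end Fermat.Agent.Mazur2
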