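/-
S12 (track ISOG), package (P7) CHAIN-ABS (helper5), part 3: **the interface** `Mz2cInput p T`.

`T` = the group `E(ℚ̄)` of the Frey curve with its `G_ℚ`-action (abstractly: any abelian group with
`card T[p^n] = p^(2n)`), `N` a cofixed line of `T[p]`, and the LOCAL data which the packages
(P1)+(P2) [field `mazur`], (P3) [fields `t0_*`], (P4) [fields `t1_*`] and (P6) [`frob_rel`] provide:

* `T0 A` (`A` a valuation subring of `ℚ̄` over a prime `ℓ ≠ p`): the points of the identity component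
  at `A` (`= ⊤` at the good places);
* `T1 A` (`A` over `p`): the kernel of reduction at `A`.

`mz2c_main` (file `Main.lean`): `Mz2cInput p T → ExtVanishingCts p → Minkowski → False`.
-/
import Fermat.Agent.Lib.Mazur2.Chain.Split

set_option autoImplicit false
set_option linter.unusedSectionVars false
set_option linter.style.haveILetI false

noncomputable section

namespace Fermat.Agent.Mazur2

local notation "Qb" => AlgebraicClosure ℚ
local notation "GQ" => (AlgebraicClosure ℚ ≃ₐ[ℚ] AlgebraicClosure ℚ)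

/-- **the input of the abstract chain argument** (Mazur's Step 5 run inside `T = E(ℚ̄)`) -/
structure Mz2cInput (p : ℕ) [Fact p.Prime] (T : Type) [AddCommGroup T] [DistribMulAction GQ T] where
  /-- the cofixed line -/
  N : AddSubgroup T
  /-- the identity component at a place over `ℓ ≠ p` (`⊤` at the good places) -/
  T0 : ValuationSubring Qb → AddSubgroup T
  /-- the kernel of reduction at a place over `p` -/
  T1 : ValuationSubring Qb → AddSubgroup T
  /-- `card T[p^n] = p^(2n)` -/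
  card_tor : ∀ n : ℕ, Nat.card ↥(mz2cTor T p n) = p ^ (2 * n)
  /-- torsion points have open stabilisers -/
  open_stab : ∀ (n : ℕ) (x : T), x ∈ mz2cTor T p n → IsOpen {σ : GQ | σ • x = x}
  N_le : N ≤ mz2cTor T p 1
  N_card : Nat.card ↥N = p
  /-- `G_ℚ` acts trivially on `T[p] / N` -/
  N_cofixed : ∀ σ : GQ, ∀ x ∈ mz2cTor T p 1, σ • x - x ∈ N
  /-- `G_ℚ` acts on `N` through the mod `p` cyclotomic character -/
  N_cyclo : ∀ σ : GQ, ∀ x ∈ N, σ • x = ExtCitation.cycloExp p σ • x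
  /-- (T2) inertia at `ℓ ≠ p` acts trivially on the `p`-power torsion of the identity component -/
  t0_inert : ∀ ℓ : ℕ, ℓ.Prime → ℓ ≠ p → ∀ A : ValuationSubring Qb, A.LiesOverPrime ℓ →
    ∀ σ ∈ A.inertiaSubgroupIn ℚ, ∀ (n : ℕ) (x : T), x ∈ T0 A → x ∈ mz2cTor T p n → σ • x = x
  /-- (T3) inertia at `ℓ ≠ p` acts trivially on the group of components -/
  t0_quot : ∀ ℓ : ℕ, ℓ.Prime → ℓ ≠ p → ∀ A : ValuationSubring Qb, A.LiesOverPrime ℓ →
    ∀ σ ∈ A.inertiaSubgroupIn ℚ, ∀ (n : ℕ) (x : T), x ∈ mz2cTor T p n → σ • x - x ∈ T0 A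
  /-- (T4) the `p`-torsion of the identity component is cyclic (or the place is good) -/
  t0_small : ∀ ℓ : ℕ, ℓ.Prime → ℓ ≠ p → ∀ A : ValuationSubring Qb, A.LiesOverPrime ℓ →
    T0 A = ⊤ ∨ Nat.card ↥(T0 A ⊓ mz2cTor T p 1) ≤ p
  /-- (T5) at `r = 2, 3` some element with cyclotomic value `r` acts on the group of components
  by a sign -/
  t0_frob : ∀ r : ℕ, r = 2 ∨ r = 3 → ∀ A : ValuationSubring Qb, A.LiesOverPrime r →
    ∃ σ : GQ, ((ExtCitation.cycloExp p σ : ℕ) : ZMod p) = (r : ZMod p) ∧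
      ∀ (n : ℕ) (x : T), x ∈ mz2cTor T p n → σ • x - x ∈ T0 A ∨ σ • x + x ∈ T0 A
  /-- (HM) **Mazur** = (P1) + (P2): a Galois-stable cyclic subgroup `⟨g⟩` of order `p^(k+1)`
  containing `N`, with `⟨p g⟩` toric everywhere and cofixed, which is toric at `2` and `3`,
  is toric at every `ℓ ≠ p` -/
  mazur : ∀ (k : ℕ) (g : T), addOrderOf g = p ^ (k + 1) →
    (∀ σ : GQ, σ • g ∈ AddSubgroup.zmultiples g) → N ≤ AddSubgroup.zmultiples g →
    (∀ ℓ : ℕ, ℓ.Prime → ℓ ≠ p → ∀ A : ValuationSubring Qb, A.LiesOverPrime ℓ → p • g ∈ T0 A) →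
    (∀ σ : GQ, ∀ x ∈ mz2cTor T p k, σ • x - x ∈ AddSubgroup.zmultiples (p • g)) →
    (∀ r : ℕ, r = 2 ∨ r = 3 → ∀ A : ValuationSubring Qb, A.LiesOverPrime r → g ∈ T0 A) →
    ∀ ℓ : ℕ, ℓ.Prime → ℓ ≠ p → ∀ A : ValuationSubring Qb, A.LiesOverPrime ℓ → g ∈ T0 A
  /-- (Q1) the kernel of reduction is stable under the decomposition group -/
  t1_stable : ∀ A : ValuationSubring Qb, A.LiesOverPrime p →
    ∀ σ ∈ A.decompositionSubgroup ℚ, ∀ x ∈ T1 A, σ • x ∈ T1 A
  /-- (Q2a) not all of `T[p]` lies in the kernel of reduction -/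
  t1_small : ∀ A : ValuationSubring Qb, A.LiesOverPrime p →
    Nat.card ↥(T1 A ⊓ mz2cTor T p 1) ≤ p
  /-- (Q2b) the kernel of reduction has at least `p^n` points of order dividing `p^n` -/
  t1_big : ∀ A : ValuationSubring Qb, A.LiesOverPrime p → ∀ n : ℕ,
    p ^ n ≤ Nat.card ↥(T1 A ⊓ mz2cTor T p n)
  /-- (Q3) inertia at `p` moves `p`-power torsion points by elements of the kernel of reduction -/
  t1_quot : ∀ A : ValuationSubring Qb, A.LiesOverPrime p →
    ∀ σ ∈ A.inertiaSubgroupIn ℚ, ∀ (n : ℕ) (x : T), x ∈ mz2cTor T p n → σ • x - x ∈ T1 A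
  /-- (Q4) the mod `p` cyclotomic character is non-trivial on inertia at `p` -/
  t1_cyclo : ∀ A : ValuationSubring Qb, A.LiesOverPrime p →
    ∃ σ ∈ A.inertiaSubgroupIn ℚ, ((ExtCitation.cycloExp p σ : ℕ) : ZMod p) ≠ 1
  /-- the good prime of the endgame, its trace and a Frobenius element -/
  ℓ₀ : ℕ
  a₀ : ℤ
  σ₀ : GQ
  a₀_ne : a₀ ≠ (ℓ₀ : ℤ) + 1
  /-- `σ₀² - a₀ σ₀ + ℓ₀ = 0` on the `p`-power torsion -/
  frob_rel : ∀ (n : ℕ) (x : T), x ∈ mz2cTor T p n →
    σ₀ • σ₀ • x - a₀ • σ₀ • x + (ℓ₀ : ℤ) • x = 0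

/-- the shape of Minkowski's theorem which is consumed (`S13Lib.eq_top_of_inertia_le`) -/
def Mz2cMink (p : ℕ) : Prop :=
  ∀ (H : Subgroup GQ) [H.Normal], IsOpen (H : Set GQ) →
    (∀ q : ℕ, q.Prime → q ≠ p → ∀ A : ValuationSubring Qb, A.LiesOverPrime q →
      A.inertiaSubgroupIn ℚ ≤ H) →
    ∀ A₀ : ValuationSubring Qb, A₀.LiesOverPrime p → A₀.inertiaSubgroupIn ℚ ≤ H → H = ⊤

end Fermat.Agent.Mazur2
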