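/-
S12 (track ISOG), package (P7) CHAIN-ABS (helper5), part 5: **the induction step**.

From `⟨g⟩ = N_(k+1)` (cyclic of order `p^(k+1)`, Galois-stable, toric outside `p`, `= T1 ∩ T[p^(k+1)]`
at `p`, hence cofixed by Minkowski) we build `N_(k+2) = ⟨g'⟩`: the extension
`0 → C₀/N' → M'/N' → M'/C₀ → 0` (`N' = ⟨g⟩`, `M' = p⁻¹ N'`, `C₀ = p⁻¹ ⟨p g⟩ = T[p] + N'`) is admissible,
so it splits (S14), and the complement `X` is cyclic, generated by `g'`.
-/
import Fermat.Agent.Lib.Mazur2.Chain.Level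

set_option autoImplicit false
set_option linter.unusedSectionVars false
set_option linter.style.haveILetI false
set_option linter.unusedVariables false

noncomputable section

namespace Fermat.Agent.Mazur2

local notation "Qb" => AlgebraicClosure ℚ
local notation "GQ" => (AlgebraicClosure ℚ ≃ₐ[ℚ] AlgebraicClosure ℚ)

variable {p : ℕ} [hp : Fact p.Prime] {T : Type} [AddCommGroup T] [DistribMulAction GQ T]

section Pre

/-- `p⁻¹ H = {x | p x ∈ H}` -/
def mz2cPre (p : ℕ) (H : AddSubgroup T) : AddSubgroup T :=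
  H.comap (nsmulAddMonoidHom p : T →+ T)

theorem mem_mz2cPre {H : AddSubgroup T} {x : T} : x ∈ mz2cPre p H ↔ p • x ∈ H := Iff.rfl

theorem mz2cPre_mono {H K : AddSubgroup T} (h : H ≤ K) : mz2cPre p H ≤ mz2cPre p K :=
  fun x hx => h hx

theorem mz2cPre_le_tor {H : AddSubgroup T} {n : ℕ} (h : H ≤ mz2cTor T p n) :
    mz2cPre p H ≤ mz2cTor T p (n + 1) := fun x hx => mem_mz2cTor_succ.mpr (h hx)

theorem mz2c_tor_one_le_pre (H : AddSubgroup T) : mz2cTor T p 1 ≤ mz2cPre p H := by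
  intro x hx
  rw [mem_mz2cPre, mem_mz2cTor_one.mp hx]
  exact H.zero_mem

/-- multiplication by `p` from `p⁻¹ H` to `H` -/
def mz2cPreHom (p : ℕ) (H : AddSubgroup T) : ↥(mz2cPre p H) →+ ↥H where
  toFun x := ⟨p • (x : T), x.2⟩
  map_zero' := by
    ext
    simp
  map_add' x y := by
    ext
    simp

theorem coe_mz2cPreHom (H : AddSubgroup T) (x : ↥(mz2cPre p H)) :
    ((mz2cPreHom p H x : ↥H) : T) = p • (x : T) := rfl

/-- `card p⁻¹ H = p² card H` for `H ≤ T[p^n]` -/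
theorem mz2c_card_pre (I : Mz2cInput p T) {H : AddSubgroup T} {n : ℕ} (h : H ≤ mz2cTor T p n) :
    Nat.card ↥(mz2cPre p H) = p ^ 2 * Nat.card ↥H := by
  have hsurj : Function.Surjective (mz2cPreHom p H) := by
    intro y
    obtain ⟨x, -, hx⟩ := mz2c_exists_smul_eq I.card_tor (h y.2)
    refine ⟨⟨x, ?_⟩, Subtype.ext hx⟩
    rw [mem_mz2cPre, hx]
    exact y.2
  have hker : Nat.card ↥(mz2cPreHom p H).ker = p ^ 2 := by
    have h1 := I.card_tor 1
    rw [mul_one] at h1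
    rw [← h1]
    refine Nat.card_congr ⟨fun x => ⟨((x : ↥(mz2cPre p H)) : T), ?_⟩,
      fun y => ⟨⟨(y : T), mz2c_tor_one_le_pre H y.2⟩, ?_⟩, ?_, ?_⟩
    · rw [mem_mz2cTor_one]
      have h2 := x.2
      rw [AddMonoidHom.mem_ker] at h2
      have h3 := congrArg (Subtype.val) h2
      rw [coe_mz2cPreHom] at h3
      exact h3
    · rw [AddMonoidHom.mem_ker]
      ext
      rw [coe_mz2cPreHom]
      exact mem_mz2cTor_one.mp y.2
    · intro x
      rfl
    · intro y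
      rfl
  have h2 : Nat.card ↥(mz2cPreHom p H).ker * (mz2cPreHom p H).ker.index =
      Nat.card ↥(mz2cPre p H) := AddSubgroup.card_mul_index _
  rw [AddSubgroup.index_ker, hker, AddMonoidHom.range_eq_top.mpr hsurj, AddSubgroup.card_top] at h2
  exact h2.symm

end Pre

section Step

variable {I : Mz2cInput p T} {k : ℕ} {g : T}

/-- the pair `(p⁻¹⟨g⟩, ⟨g⟩)` -/
def mz2cStepPair (L : Mz2cLevel I k g) : Mz2cPair p T where
  M := mz2cPre p (AddSubgroup.zmultiples g)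
  N := AddSubgroup.zmultiples g
  le := fun x hx => (AddSubgroup.zmultiples g).nsmul_mem hx p
  stableM := fun σ x hx => by
    rw [mem_mz2cPre, ← mz2c_smul_nsmul]
    exact L.smul_mem σ hx
  stableN := fun σ x hx => L.smul_mem σ hx
  smul_mem := fun x hx => hx

theorem mz2c_step_NC (g : T) :
    AddSubgroup.zmultiples g ≤ mz2cPre p (AddSubgroup.zmultiples (p • g)) := by
  intro x hx
  obtain ⟨z, rfl⟩ := AddSubgroup.mem_zmultiples_iff.mp hx
  rw [mem_mz2cPre, smul_comm]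
  exact AddSubgroup.zsmul_mem_zmultiples _ z

theorem mz2c_step_CM (g : T) :
    mz2cPre p (AddSubgroup.zmultiples (p • g)) ≤ mz2cPre p (AddSubgroup.zmultiples g) := by
  apply mz2cPre_mono
  rw [AddSubgroup.zmultiples_le]
  exact AddSubgroup.nsmul_mem_zmultiples g p

/-- an element of `C₀ = p⁻¹⟨p g⟩` is the sum of an element of `T[p]` and of an element of `⟨g⟩` -/
theorem mz2c_step_C_decomp {x : T} (hx : x ∈ mz2cPre p (AddSubgroup.zmultiples (p • g))) :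
    ∃ z : ℤ, x - z • g ∈ mz2cTor T p 1 := by
  obtain ⟨z, hz⟩ := AddSubgroup.mem_zmultiples_iff.mp (mem_mz2cPre.mp hx)
  refine ⟨z, ?_⟩
  rw [mem_mz2cTor_one, smul_sub, ← hz, smul_comm, sub_self]

theorem mz2c_step_C_stable (L : Mz2cLevel I k g) (σ : GQ) {x : T}
    (hx : x ∈ mz2cPre p (AddSubgroup.zmultiples (p • g))) :
    σ • x ∈ mz2cPre p (AddSubgroup.zmultiples (p • g)) := by
  rw [mem_mz2cPre, ← mz2c_smul_nsmul]
  refine mz2c_smul_mem_zmultiples ?_ (mem_mz2cPre.mp hx)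
  obtain ⟨z, hz⟩ := AddSubgroup.mem_zmultiples_iff.mp (L.stable σ)
  rw [mz2c_smul_nsmul, ← hz, smul_comm]
  exact AddSubgroup.zsmul_mem_zmultiples _ z

theorem mz2c_step_C1 (L : Mz2cLevel I k g) :
    ∃ x ∈ mz2cPre p (AddSubgroup.zmultiples (p • g)), x ∉ AddSubgroup.zmultiples g := by
  obtain ⟨x, hx, hxg⟩ := mz2c_exists_not_mem I L.order
  exact ⟨x, mz2c_tor_one_le_pre _ hx, hxg⟩

theorem mz2c_step_C2 (L : Mz2cLevel I k g) :
    ∃ x ∈ mz2cPre p (AddSubgroup.zmultiples g),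
      x ∉ mz2cPre p (AddSubgroup.zmultiples (p • g)) := by
  obtain ⟨x, -, hx⟩ := mz2c_exists_smul_eq I.card_tor L.mem_tor
  refine ⟨x, ?_, ?_⟩
  · rw [mem_mz2cPre, hx]
    exact AddSubgroup.mem_zmultiples g
  · intro h
    rw [mem_mz2cPre, hx] at h
    have h1 : g ∈ mz2cTor T p k := mz2c_zmultiples_le_tor (mz2c_addOrderOf_smul L.order) h
    rw [mem_mz2cTor, mz2c_nsmul_eq_zero_iff L.order] at h1
    have h2 := Nat.le_of_dvd (pow_pos hp.out.pos k) h1
    have h3 : p ^ k < p ^ (k + 1) := Nat.pow_lt_pow_right hp.out.one_lt (Nat.lt_succ_self k)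
    omega

theorem mz2c_step_fix (L : Mz2cLevel I k g)
    (hcof : ∀ σ : GQ, ∀ x ∈ mz2cTor T p (k + 1), σ • x - x ∈ AddSubgroup.zmultiples g)
    (σ : GQ) {x : T} (hx : x ∈ mz2cPre p (AddSubgroup.zmultiples (p • g))) :
    σ • x - x ∈ AddSubgroup.zmultiples g := by
  obtain ⟨z, hz⟩ := mz2c_step_C_decomp hx
  have h1 : σ • x - x = (σ • (x - z • g) - (x - z • g)) + (σ • (z • g) - z • g) := by
    rw [smul_sub]
    abel
  rw [h1]
  refine AddSubgroup.add_mem _ (hcof σ _ (mz2cTor_mono (by omega) hz)) ?_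
  exact AddSubgroup.sub_mem _ (L.smul_mem σ (AddSubgroup.zsmul_mem_zmultiples g z))
    (AddSubgroup.zsmul_mem_zmultiples g z)

theorem mz2c_step_cyc (L : Mz2cLevel I k g) (σ : GQ) {x : T}
    (hx : x ∈ mz2cPre p (AddSubgroup.zmultiples g)) :
    σ • x - ExtCitation.cycloExp p σ • x ∈ mz2cPre p (AddSubgroup.zmultiples (p • g)) := by
  obtain ⟨c, hc, hcmod⟩ := L.exists_char σ
  obtain ⟨t, ht⟩ := Nat.modEq_iff_dvd.mp hcmod
  have key : σ • g - ExtCitation.cycloExp p σ • g ∈ AddSubgroup.zmultiples (p • g) := by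
    have h1 : σ • g - ExtCitation.cycloExp p σ • g = (-t) • (p • g) := by
      rw [hc, ← natCast_zsmul g c, ← natCast_zsmul g (ExtCitation.cycloExp p σ), ← sub_smul,
        ← natCast_zsmul g p, ← mul_smul]
      congr 1
      linarith
    rw [h1]
    exact AddSubgroup.zsmul_mem_zmultiples _ _
  obtain ⟨z, hz⟩ := AddSubgroup.mem_zmultiples_iff.mp (mem_mz2cPre.mp hx)
  rw [mem_mz2cPre]
  have h2 : p • (σ • x - ExtCitation.cycloExp p σ • x) =
      z • (σ • g - ExtCitation.cycloExp p σ • g) := by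
    rw [smul_sub, ← mz2c_smul_nsmul, smul_comm p (ExtCitation.cycloExp p σ) x, ← hz, mz2c_smul_zsmul,
      smul_sub, smul_comm (ExtCitation.cycloExp p σ) z g]
  rw [h2]
  exact AddSubgroup.zsmul_mem _ key z

/-- the local complement at `p`: `T1 ∩ T[p^(k+2)]` -/
theorem mz2c_step_loc_le (L : Mz2cLevel I k g) {A : ValuationSubring Qb} (hA : A.LiesOverPrime p) :
    AddSubgroup.zmultiples g ≤ I.T1 A ⊓ mz2cTor T p (k + 2) := by
  rw [L.atp A hA]
  exact inf_le_inf le_rfl (mz2cTor_mono (by omega))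

theorem mz2c_step_loc_le_pre (L : Mz2cLevel I k g) {A : ValuationSubring Qb}
    (hA : A.LiesOverPrime p) :
    I.T1 A ⊓ mz2cTor T p (k + 2) ≤ mz2cPre p (AddSubgroup.zmultiples g) := by
  intro x hx
  rw [mem_mz2cPre, L.atp A hA]
  exact ⟨(I.T1 A).nsmul_mem hx.1 p, mem_mz2cTor_succ.mp hx.2⟩

theorem mz2c_step_loc_inter (L : Mz2cLevel I k g) {A : ValuationSubring Qb}
    (hA : A.LiesOverPrime p) {x : T} (hx : x ∈ I.T1 A ⊓ mz2cTor T p (k + 2))
    (hxC : x ∈ mz2cPre p (AddSubgroup.zmultiples (p • g))) : x ∈ AddSubgroup.zmultiples g := by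
  obtain ⟨z, hz⟩ := mz2c_step_C_decomp hxC
  have hg1 : g ∈ I.T1 A := by
    have h := AddSubgroup.mem_zmultiples g
    rw [L.atp A hA] at h
    exact h.1
  have h1 : x - z • g ∈ I.T1 A ⊓ mz2cTor T p (k + 1) :=
    ⟨(I.T1 A).sub_mem hx.1 ((I.T1 A).zsmul_mem hg1 z), mz2cTor_mono (by omega) hz⟩
  rw [← L.atp A hA] at h1
  have h2 : x = (x - z • g) + z • g := by abel
  rw [h2]
  exact AddSubgroup.add_mem _ h1 (AddSubgroup.zsmul_mem_zmultiples g z)

theorem mz2c_step_loc_big (L : Mz2cLevel I k g) {A : ValuationSubring Qb}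
    (hA : A.LiesOverPrime p) :
    ∃ x ∈ I.T1 A ⊓ mz2cTor T p (k + 2), x ∉ AddSubgroup.zmultiples g := by
  by_contra hcon
  push Not at hcon
  have hle : I.T1 A ⊓ mz2cTor T p (k + 2) ≤ AddSubgroup.zmultiples g := hcon
  haveI : Finite ↥(AddSubgroup.zmultiples g) := mz2c_finite_of_le I L.le_tor
  have h1 := AddSubgroup.card_le_of_le hle
  rw [mz2c_card_zmultiples L.order] at h1
  have h2 := I.t1_big A hA (k + 2)
  have h3 : p ^ (k + 1) < p ^ (k + 2) := Nat.pow_lt_pow_right hp.out.one_lt (by omega)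
  omega

/-- **S14 applied to the step extension** -/
theorem mz2c_step_split (L : Mz2cLevel I k g) (hS14 : ExtCitation.ExtVanishingCts p)
    (hcof : ∀ σ : GQ, ∀ x ∈ mz2cTor T p (k + 1), σ • x - x ∈ AddSubgroup.zmultiples g) :
    ∃ X : AddSubgroup T, AddSubgroup.zmultiples g ≤ X ∧
      X ≤ mz2cPre p (AddSubgroup.zmultiples g) ∧ (∀ σ : GQ, ∀ x ∈ X, σ • x ∈ X) ∧
      (∀ x ∈ X, x ∈ mz2cPre p (AddSubgroup.zmultiples (p • g)) → x ∈ AddSubgroup.zmultiples g) ∧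
      (∃ y ∈ X, y ∉ AddSubgroup.zmultiples g) ∧
      (∀ m ∈ mz2cPre p (AddSubgroup.zmultiples g),
        ∃ x ∈ X, m - x ∈ mz2cPre p (AddSubgroup.zmultiples (p • g))) ∧
      (∀ x ∈ X, ∀ y ∈ X, y ∉ AddSubgroup.zmultiples g →
        ∃ c : ℕ, x - c • y ∈ AddSubgroup.zmultiples g) := by
  haveI hfin : Finite ↥(mz2cStepPair L).M :=
    mz2c_finite_of_le I (mz2cPre_le_tor (n := k + 1) L.le_tor)
  exact mz2c_split hS14 (mz2cStepPair L) (mz2cPre p (AddSubgroup.zmultiples (p • g)))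
    (mz2c_step_NC g) (mz2c_step_CM g) (fun σ x hx => mz2c_step_C_stable L σ hx)
    (mz2c_card_pre I L.le_tor) (mz2c_step_C1 L) (mz2c_step_C2 L)
    (fun σ x hx => mz2c_step_fix L hcof σ hx) (fun σ x hx => mz2c_step_cyc L σ hx)
    (fun ℓ hℓ hℓp A hA σ hσ x hx => L.inertia_quot' hℓ hℓp hA hσ hx)
    (fun A hA => ⟨I.T1 A ⊓ mz2cTor T p (k + 2), mz2c_step_loc_le L hA, mz2c_step_loc_le_pre L hA,
      fun σ hσ x hx => ⟨I.t1_stable A hA σ hσ x hx.1, mz2c_smul_mem_tor σ hx.2⟩,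
      fun x hx hxC => mz2c_step_loc_inter L hA hx hxC, mz2c_step_loc_big L hA⟩)
    (fun x hx => I.open_stab (k + 2) x (mz2cPre_le_tor (n := k + 1) L.le_tor hx))

/-- the complement `X` is cyclic: a generator `g'` with `p g' = e g`, `p ∤ e` -/
theorem mz2c_step_gen (L : Mz2cLevel I k g) {X : AddSubgroup T}
    (hNX : AddSubgroup.zmultiples g ≤ X) (hXM : X ≤ mz2cPre p (AddSubgroup.zmultiples g))
    (hXC : ∀ x ∈ X, x ∈ mz2cPre p (AddSubgroup.zmultiples (p • g)) →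
      x ∈ AddSubgroup.zmultiples g)
    (hy : ∃ y ∈ X, y ∉ AddSubgroup.zmultiples g)
    (hdim : ∀ x ∈ X, ∀ y ∈ X, y ∉ AddSubgroup.zmultiples g →
      ∃ c : ℕ, x - c • y ∈ AddSubgroup.zmultiples g) :
    ∃ g' : T, ∃ e : ℕ, p • g' = e • g ∧ ¬ p ∣ e ∧ addOrderOf g' = p ^ (k + 1 + 1) ∧
      X = AddSubgroup.zmultiples g' ∧ AddSubgroup.zmultiples g ≤ AddSubgroup.zmultiples (p • g') := by
  obtain ⟨y, hyX, hyg⟩ := hy
  obtain ⟨e, he⟩ := (mz2c_mem_zmultiples_iff L.order).mp (mem_mz2cPre.mp (hXM hyX))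
  have hpe : ¬ p ∣ e := by
    rintro ⟨e', rfl⟩
    apply hyg
    apply hXC y hyX
    rw [mem_mz2cPre, he, mul_comm, mul_smul]
    exact AddSubgroup.nsmul_mem_zmultiples _ e'
  have hgle : AddSubgroup.zmultiples g ≤ AddSubgroup.zmultiples (p • y) := by
    rw [AddSubgroup.zmultiples_le, he]
    exact mz2c_mem_zmultiples_of_not_dvd L.order hpe
  have hgle' : AddSubgroup.zmultiples g ≤ AddSubgroup.zmultiples y := by
    refine hgle.trans ?_
    rw [AddSubgroup.zmultiples_le]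
    exact AddSubgroup.nsmul_mem_zmultiples y p
  have hXeq : X = AddSubgroup.zmultiples y := by
    apply le_antisymm
    · intro x hx
      obtain ⟨c, hc⟩ := hdim x hx y hyX hyg
      have h1 : x = (x - c • y) + c • y := by abel
      rw [h1]
      exact AddSubgroup.add_mem _ (hgle' hc) (AddSubgroup.nsmul_mem_zmultiples y c)
    · rw [AddSubgroup.zmultiples_le]
      exact hyX
  have hord : addOrderOf y = p ^ (k + 1 + 1) := by
    apply addOrderOf_eq_prime_pow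
    · -- `p^(k+1) y = e (p^k g) ≠ 0`
      rw [pow_succ, mul_smul, he, ← mul_smul, mz2c_nsmul_eq_zero_iff L.order]
      intro hdvd
      rw [pow_succ', mul_comm (p ^ k) e] at hdvd
      exact hpe (Nat.dvd_of_mul_dvd_mul_right (pow_pos hp.out.pos k) hdvd)
    · rw [pow_succ, mul_smul, he, smul_comm, ← L.order, addOrderOf_nsmul_eq_zero, smul_zero]
  exact ⟨y, e, he, hpe, hord, hXeq, hgle⟩

/-- the new level at `p`: `X = T1 ∩ T[p^(k+2)]` -/
theorem mz2c_step_atp (L : Mz2cLevel I k g)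
    (hcof : ∀ σ : GQ, ∀ x ∈ mz2cTor T p (k + 1), σ • x - x ∈ AddSubgroup.zmultiples g)
    {X : AddSubgroup T}
    (hNX : AddSubgroup.zmultiples g ≤ X) (hXM : X ≤ mz2cPre p (AddSubgroup.zmultiples g))
    (hXst : ∀ σ : GQ, ∀ x ∈ X, σ • x ∈ X)
    (hXC : ∀ x ∈ X, x ∈ mz2cPre p (AddSubgroup.zmultiples (p • g)) →
      x ∈ AddSubgroup.zmultiples g)
    (hsum : ∀ m ∈ mz2cPre p (AddSubgroup.zmultiples g),
        ∃ x ∈ X, m - x ∈ mz2cPre p (AddSubgroup.zmultiples (p • g)))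
    {A : ValuationSubring Qb} (hA : A.LiesOverPrime p) :
    I.T1 A ⊓ mz2cTor T p (k + 2) ≤ X := by
  intro x₁ hx₁
  obtain ⟨σ, hσ, hσ1⟩ := I.t1_cyclo A hA
  obtain ⟨x₂, hx₂, ht⟩ := hsum x₁ (mz2c_step_loc_le_pre L hA hx₁)
  -- `a₁ = σ x₁ - c₀ x₁ ∈ X₁ ∩ C₀`
  have hσx₁ : σ • x₁ ∈ I.T1 A ⊓ mz2cTor T p (k + 2) := by
    refine ⟨?_, mz2c_smul_mem_tor σ hx₁.2⟩
    have h1 : σ • x₁ = (σ • x₁ - x₁) + x₁ := by abel
    rw [h1]
    exact (I.T1 A).add_mem (I.t1_quot A hA σ hσ (k + 2) x₁ hx₁.2) hx₁.1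
  have ha₁ : σ • x₁ - ExtCitation.cycloExp p σ • x₁ ∈ AddSubgroup.zmultiples g :=
    mz2c_step_loc_inter L hA
      (AddSubgroup.sub_mem _ hσx₁ (AddSubgroup.nsmul_mem _ hx₁ _))
      (mz2c_step_cyc L σ (mz2c_step_loc_le_pre L hA hx₁))
  have ha₂ : σ • x₂ - ExtCitation.cycloExp p σ • x₂ ∈ AddSubgroup.zmultiples g :=
    hXC _ (X.sub_mem (hXst σ x₂ hx₂) (X.nsmul_mem hx₂ _)) (mz2c_step_cyc L σ (hXM hx₂))
  -- `t = x₁ - x₂`
  have hfix := mz2c_step_fix L hcof σ ht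
  have h3 : ((ExtCitation.cycloExp p σ : ℤ) - 1) • (x₁ - x₂) ∈ AddSubgroup.zmultiples g := by
    have h4 : ((ExtCitation.cycloExp p σ : ℤ) - 1) • (x₁ - x₂) =
        (σ • (x₁ - x₂) - (x₁ - x₂)) - ((σ • x₁ - ExtCitation.cycloExp p σ • x₁) -
          (σ • x₂ - ExtCitation.cycloExp p σ • x₂)) := by
      rw [sub_smul, natCast_zsmul, one_smul, smul_sub, smul_sub]
      abel
    rw [h4]
    exact AddSubgroup.sub_mem _ hfix (AddSubgroup.sub_mem _ ha₁ ha₂)
  have hpt : p ^ 1 • (x₁ - x₂) ∈ AddSubgroup.zmultiples g := by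
    rw [pow_one]
    exact mem_mz2cPre.mp (mz2c_step_CM g ht)
  have htg : x₁ - x₂ ∈ AddSubgroup.zmultiples g := by
    refine mz2c_mem_of_zsmul_mem hpt ?_ h3
    intro hdvd
    have h5 := (ZMod.intCast_zmod_eq_zero_iff_dvd _ p).mpr hdvd
    push_cast at h5
    exact hσ1 (sub_eq_zero.mp h5)
  have h6 : x₁ = x₂ + (x₁ - x₂) := by abel
  rw [h6]
  exact X.add_mem hx₂ (hNX htg)

/-- **the induction step** -/
theorem mz2c_step (hp5 : 5 ≤ p) (L : Mz2cLevel I k g) (hS14 : ExtCitation.ExtVanishingCts p)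
    (hMink : Mz2cMink p) (hAp : ∃ A : ValuationSubring Qb, A.LiesOverPrime p) :
    ∃ g' : T, Mz2cLevel I (k + 1) g' := by
  have hcof := L.cofixed hMink hAp
  obtain ⟨X, hNX, hXM, hXst, hXC, hy, hsum, hdim⟩ := mz2c_step_split L hS14 hcof
  obtain ⟨g', e, he, hpe, hord, hXeq, hgle⟩ := mz2c_step_gen L hNX hXM hXC hy hdim
  have hg'X : g' ∈ X := by
    rw [hXeq]
    exact AddSubgroup.mem_zmultiples g'
  have hst : ∀ σ : GQ, σ • g' ∈ AddSubgroup.zmultiples g' := by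
    intro σ
    rw [← hXeq]
    exact hXst σ g' hg'X
  have hN : I.N ≤ AddSubgroup.zmultiples g' := by
    rw [← hXeq]
    exact L.N_le.trans hNX
  refine ⟨g', hord, hst, hN, ?_, ?_⟩
  · -- toric
    refine I.mazur (k + 1) g' hord hst hN ?_ ?_ (mz2c_toric_small I hp5 hord hst hN)
    · intro ℓ hℓ hℓp A hA
      rw [he]
      exact (I.T0 A).nsmul_mem (L.toric ℓ hℓ hℓp A hA) e
    · intro σ x hx
      exact hgle (hcof σ x hx)
  · -- at `p`
    intro A hA
    have hle : I.T1 A ⊓ mz2cTor T p (k + 1 + 1) ≤ AddSubgroup.zmultiples g' := by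
      rw [← hXeq]
      exact mz2c_step_atp L hcof hNX hXM hXst hXC hsum hA
    haveI : Finite ↥(AddSubgroup.zmultiples g') :=
      mz2c_finite_of_le I (mz2c_zmultiples_le_tor hord)
    refine (AddSubgroup.eq_of_le_of_card_ge hle ?_).symm
    rw [mz2c_card_zmultiples hord]
    exact I.t1_big A hA (k + 1 + 1)

end Step

end Fermat.Agent.Mazur2
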