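/-
S12 (track ISOG), package (P7) CHAIN-ABS (helper5), part 6: **the endgame**.

The chain `N_1 ⊂ N_2 ⊂ …` exists at every level (`mz2c_levels`); the Frobenius relation
`σ₀² - a₀ σ₀ + ℓ₀ = 0` together with the triviality of the action on `T[p^(j+1)] / N_(j+1)` gives
`(1 - a₀ + ℓ₀) T[p^(j+1)] ⊆ N_(j+1)`, which is absurd for `j = ord_p (1 - a₀ + ℓ₀)` because the left
side contains `T[p]`, which is not cyclic.
-/
import Fermat.Agent.Lib.Mazur2.Chain.Step

set_option autoImplicit false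
set_option linter.unusedSectionVars false
set_option linter.style.haveILetI false
set_option linter.unusedVariables false

noncomputable section

namespace Fermat.Agent.Mazur2

local notation "Qb" => AlgebraicClosure ℚ
local notation "GQ" => (AlgebraicClosure ℚ ≃ₐ[ℚ] AlgebraicClosure ℚ)

variable {p : ℕ} [hp : Fact p.Prime] {T : Type} [AddCommGroup T] [DistribMulAction GQ T]

/-- iterated division by `p` on the torsion -/
theorem mz2c_exists_pow_smul_eq (hcard : ∀ n, Nat.card ↥(mz2cTor T p n) = p ^ (2 * n)) {n : ℕ}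
    (j : ℕ) {x : T} (hx : x ∈ mz2cTor T p n) : ∃ y ∈ mz2cTor T p (n + j), p ^ j • y = x := by
  induction j with
  | zero => exact ⟨x, hx, by rw [pow_zero, one_smul]⟩
  | succ j ih =>
    obtain ⟨y, hy, hyx⟩ := ih
    obtain ⟨w, hw, hwy⟩ := mz2c_exists_smul_eq hcard hy
    exact ⟨w, hw, by rw [pow_succ, mul_smul, hwy, hyx]⟩

/-- **all the levels of the chain exist** -/
theorem mz2c_levels (hp5 : 5 ≤ p) (I : Mz2cInput p T) (hS14 : ExtCitation.ExtVanishingCts p)
    (hMink : Mz2cMink p) (hAp : ∃ A : ValuationSubring Qb, A.LiesOverPrime p) :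
    ∀ k : ℕ, ∃ g : T, Mz2cLevel I k g := by
  intro k
  induction k with
  | zero => exact mz2c_base I hp5
  | succ k ih =>
    obtain ⟨g, L⟩ := ih
    exact mz2c_step hp5 L hS14 hMink hAp

/-- **the abstract chain argument**: the input data cannot exist -/
theorem mz2c_main (hp5 : 5 ≤ p) (I : Mz2cInput p T) (hS14 : ExtCitation.ExtVanishingCts p)
    (hMink : Mz2cMink p) (hAp : ∃ A : ValuationSubring Qb, A.LiesOverPrime p) : False := by
  have hm0 : (1 - I.a₀ + (I.ℓ₀ : ℤ)) ≠ 0 := by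
    intro h
    apply I.a₀_ne
    linarith
  have hirr : Irreducible (p : ℤ) := (Nat.prime_iff_prime_int.mp hp.out).irreducible
  obtain ⟨j, m', hm', hm⟩ := WfDvdMonoid.max_power_factor hm0 hirr
  obtain ⟨g, L⟩ := mz2c_levels hp5 I hS14 hMink hAp j
  have hcof := L.cofixed hMink hAp
  -- `(1 - a₀ + ℓ₀) T[p^(j+1)] ⊆ ⟨g⟩`
  have hkey : ∀ y ∈ mz2cTor T p (j + 1),
      (1 - I.a₀ + (I.ℓ₀ : ℤ)) • y ∈ AddSubgroup.zmultiples g := by
    intro y hy
    have hd : I.σ₀ • y - y ∈ AddSubgroup.zmultiples g := hcof I.σ₀ y hy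
    have hrel := I.frob_rel (j + 1) y hy
    have h1 : (1 - I.a₀ + (I.ℓ₀ : ℤ)) • y =
        I.a₀ • (I.σ₀ • y - y) - (I.σ₀ • y - y) - I.σ₀ • (I.σ₀ • y - y) +
          (I.σ₀ • I.σ₀ • y - I.a₀ • I.σ₀ • y + (I.ℓ₀ : ℤ) • y) := by
      simp only [smul_sub, sub_smul, add_smul, one_smul]
      abel
    rw [h1, hrel, add_zero]
    exact AddSubgroup.sub_mem _ (AddSubgroup.sub_mem _ (AddSubgroup.zsmul_mem _ hd _) hd)
      (L.smul_mem I.σ₀ hd)
  -- `T[p] ⊆ ⟨g⟩`
  obtain ⟨x, hx, hxg⟩ := mz2c_exists_not_mem I L.order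
  apply hxg
  obtain ⟨y, hy, hyx⟩ := mz2c_exists_pow_smul_eq I.card_tor j hx
  have hy' : y ∈ mz2cTor T p (j + 1) := by
    rw [add_comm]
    exact hy
  have h2 : m' • x ∈ AddSubgroup.zmultiples g := by
    have h3 := hkey y hy'
    rw [hm, mul_comm, mul_smul] at h3
    have h4 : ((p : ℤ) ^ j) • y = x := by
      rw [← hyx, ← natCast_zsmul]
      push_cast
      rfl
    rwa [h4] at h3
  have hpx : p ^ 1 • x ∈ AddSubgroup.zmultiples g := by
    rw [pow_one, mem_mz2cTor_one.mp hx]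
    exact AddSubgroup.zero_mem _
  exact mz2c_mem_of_zsmul_mem hpx hm' h2

end Fermat.Agent.Mazur2
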