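/-
S12 (track ISOG), package (P7) CHAIN-ABS (helper5), part 7: the abstract hypotheses of `mz2c_main`
discharged (S14, Minkowski = `S13Lib.eq_top_of_inertia_le`, existence of a place over `p`), and the
field `t1_cyclo` of `Mz2cInput` (the mod `p` cyclotomic character is ramified at `p`).

`mz2c_final : 5 ≤ p → Mz2cInput p T → False`.
-/
import Fermat.Agent.Lib.Mazur2.Chain.Main
import Fermat.Agent.S14
import Fermat.Agent.Lib.S13.GlobalTrivial
import Fermat.Agent.Lib.Helper6.FrobeniusExists
import Fermat.Agent.Lib.TW.Local.CycloRamified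

set_option autoImplicit false
set_option linter.unusedSectionVars false
set_option linter.style.haveILetI false
set_option linter.unusedVariables false

noncomputable section

namespace Fermat.Agent.Mazur2

local notation "Qb" => AlgebraicClosure ℚ
local notation "GQ" => (AlgebraicClosure ℚ ≃ₐ[ℚ] AlgebraicClosure ℚ)

/-- Minkowski in the shape consumed by the chain argument -/
theorem mz2c_mink (p : ℕ) [hp : Fact p.Prime] : Mz2cMink p := by
  intro H _ hopen hout A₀ hA₀ h₀
  exact Fermat.Agent.S13Lib.eq_top_of_inertia_le H hopen p hp.out hout A₀ hA₀ h₀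

/-- the field `t1_cyclo` of `Mz2cInput` -/
theorem mz2c_t1_cyclo (p : ℕ) [hp : Fact p.Prime] (h3 : 3 ≤ p) :
    ∀ A : ValuationSubring Qb, A.LiesOverPrime p →
      ∃ σ ∈ A.inertiaSubgroupIn ℚ, ((ExtCitation.cycloExp p σ : ℕ) : ZMod p) ≠ 1 := by
  intro A hA
  haveI : NeZero p := ⟨hp.out.ne_zero⟩
  obtain ⟨σ, hσ, hσ1⟩ := Fermat.Agent.TW.tw_exists_inertia_cycloChar_ne_one p h3 A hA
  refine ⟨σ, hσ, fun h => hσ1 ?_⟩
  apply Units.ext
  rw [← ExtCitation.val_cycloChar, ZMod.natCast_zmod_val] at h
  rw [h]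
  rfl

/-- **the chain argument, unconditionally**: the data `Mz2cInput p T` cannot exist for `p ≥ 5` -/
theorem mz2c_final {p : ℕ} [hp : Fact p.Prime] (hp5 : 5 ≤ p) {T : Type} [AddCommGroup T]
    [DistribMulAction GQ T] (I : Mz2cInput p T) : False :=
  mz2c_main hp5 I (Fermat.Agent.S14.result (by omega)) (mz2c_mink p)
    (Fermat.Agent.Lib.Helper6.exists_valuationSubring_liesOverPrime Qb hp.out)

end Fermat.Agent.Mazur2
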