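/-
S12 (track ISOG), package (P7) CHAIN-ABS (helper5), part 4: the state of the induction
(`Mz2cLevel I k g`: `⟨g⟩ = N_(k+1)` is the cyclic subgroup of order `p^(k+1)` of the chain), its general
consequences (in particular, via Minkowski, `G_ℚ` acts trivially on `T[p^(k+1)] / ⟨g⟩`) and the
base case `k = 0`.
-/
import Fermat.Agent.Lib.Mazur2.Chain.Defs

set_option autoImplicit false
set_option linter.unusedSectionVars false
set_option linter.style.haveILetI false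
set_option linter.unusedVariables false

noncomputable section

namespace Fermat.Agent.Mazur2

local notation "Qb" => AlgebraicClosure ℚ
local notation "GQ" => (AlgebraicClosure ℚ ≃ₐ[ℚ] AlgebraicClosure ℚ)

variable {p : ℕ} [hp : Fact p.Prime] {T : Type} [AddCommGroup T] [DistribMulAction GQ T]

section General

/-- `σ` maps `⟨g⟩` into itself as soon as it does so for `g` -/
theorem mz2c_smul_mem_zmultiples {g : T} {σ : GQ} (h : σ • g ∈ AddSubgroup.zmultiples g) {x : T}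
    (hx : x ∈ AddSubgroup.zmultiples g) : σ • x ∈ AddSubgroup.zmultiples g := by
  obtain ⟨k, rfl⟩ := AddSubgroup.mem_zmultiples_iff.mp hx
  have : σ • (k • g) = k • (σ • g) := map_zsmul (DistribSMul.toAddMonoidHom T σ) k g
  rw [this]
  exact AddSubgroup.zsmul_mem _ h k

theorem mz2c_smul_nsmul (σ : GQ) (c : ℕ) (x : T) : σ • (c • x) = c • (σ • x) :=
  map_nsmul (DistribSMul.toAddMonoidHom T σ) c x

theorem mz2c_smul_zsmul (σ : GQ) (c : ℤ) (x : T) : σ • (c • x) = c • (σ • x) :=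
  map_zsmul (DistribSMul.toAddMonoidHom T σ) c x

theorem mz2c_mem_tor_of_order {g : T} {m : ℕ} (hg : addOrderOf g = p ^ m) : g ∈ mz2cTor T p m := by
  rw [mem_mz2cTor, ← hg]
  exact addOrderOf_nsmul_eq_zero g

theorem mz2c_zmultiples_le_tor {g : T} {m : ℕ} (hg : addOrderOf g = p ^ m) :
    AddSubgroup.zmultiples g ≤ mz2cTor T p m := by
  rw [AddSubgroup.zmultiples_le]
  exact mz2c_mem_tor_of_order hg

/-- an element `t` with `p^m t ∈ H` and `z t ∈ H`, `p ∤ z`, lies in `H` -/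
theorem mz2c_mem_of_zsmul_mem {H : AddSubgroup T} {t : T} {m : ℕ} (hpt : p ^ m • t ∈ H) {z : ℤ}
    (hz : ¬ (p : ℤ) ∣ z) (hzt : z • t ∈ H) : t ∈ H := by
  have h1 : Prime (p : ℤ) := Nat.prime_iff_prime_int.mp hp.out
  have hcop : IsCoprime z ((p : ℤ) ^ m) :=
    IsCoprime.pow_right ((Prime.coprime_iff_not_dvd h1).mpr hz).symm
  obtain ⟨a, b, hab⟩ := hcop
  have h2 : t = a • (z • t) + b • (p ^ m • t) := by
    calc t = (1 : ℤ) • t := (one_smul _ _).symm
      _ = (a * z + b * (p : ℤ) ^ m) • t := by rw [hab]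
      _ = a • (z • t) + b • (p ^ m • t) := by
        rw [add_smul, mul_smul, mul_smul]
        congr 2
        rw [← natCast_zsmul]
        push_cast
        rfl
  rw [h2]
  exact H.add_mem (H.zsmul_mem hzt a) (H.zsmul_mem hpt b)

theorem mz2c_finite_tor (I : Mz2cInput p T) (n : ℕ) : Finite ↥(mz2cTor T p n) :=
  Nat.finite_of_card_ne_zero (by rw [I.card_tor]; exact pow_ne_zero _ hp.out.ne_zero)

theorem mz2c_finite_of_le (I : Mz2cInput p T) {H : AddSubgroup T} {n : ℕ} (h : H ≤ mz2cTor T p n) :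
    Finite ↥H := by
  haveI := mz2c_finite_tor I n
  exact Finite.of_injective (fun x : ↥H => (⟨x.1, h x.2⟩ : ↥(mz2cTor T p n)))
    (fun x y hxy => Subtype.ext (congrArg (fun z : ↥(mz2cTor T p n) => (z : T)) hxy))

/-- the line `N` is stable -/
theorem Mz2cInput.N_stable (I : Mz2cInput p T) (σ : GQ) {x : T} (hx : x ∈ I.N) : σ • x ∈ I.N := by
  rw [I.N_cyclo σ x hx]
  exact I.N.nsmul_mem hx _

/-- `T[p]` is not contained in a cyclic group -/
theorem mz2c_exists_not_mem (I : Mz2cInput p T) {g : T} {k : ℕ} (hg : addOrderOf g = p ^ (k + 1)) :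
    ∃ x ∈ mz2cTor T p 1, x ∉ AddSubgroup.zmultiples g := by
  by_contra hcon
  push Not at hcon
  have hle : mz2cTor T p 1 ≤ AddSubgroup.zmultiples (p ^ k • g) := fun x hx =>
    mz2c_mem_zmultiples_pow_of_mem_tor_one hg (hcon x hx) hx
  haveI : Finite ↥(AddSubgroup.zmultiples (p ^ k • g)) :=
    Nat.finite_of_card_ne_zero (by
      rw [Nat.card_zmultiples, mz2c_addOrderOf_pow_smul hg]
      exact hp.out.ne_zero)
  have h1 := AddSubgroup.card_le_of_le hle
  rw [I.card_tor, Nat.card_zmultiples, mz2c_addOrderOf_pow_smul hg, mul_one] at h1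
  have h2 : p < p ^ 2 := by
    have := hp.out.two_le
    nlinarith
  omega

end General

section Char

variable (I : Mz2cInput p T) {k : ℕ} {g : T}

/-- a cyclic group `⟨g⟩ ⊇ N` of order `p^(k+1)` has `N = ⟨p^k g⟩` -/
theorem mz2c_N_eq (hord : addOrderOf g = p ^ (k + 1)) (hN : I.N ≤ AddSubgroup.zmultiples g) :
    I.N = AddSubgroup.zmultiples (p ^ k • g) :=
  mz2c_eq_zmultiples_pow hord I.N hN I.N_le I.N_card

/-- the character of `G_ℚ` on a stable `⟨g⟩ ⊇ N` is congruent to the cyclotomic character mod `p` -/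
theorem mz2c_exists_char (hord : addOrderOf g = p ^ (k + 1))
    (hst : ∀ σ : GQ, σ • g ∈ AddSubgroup.zmultiples g) (hN : I.N ≤ AddSubgroup.zmultiples g)
    (σ : GQ) : ∃ c : ℕ, σ • g = c • g ∧ c ≡ ExtCitation.cycloExp p σ [MOD p] := by
  obtain ⟨c, hc⟩ := (mz2c_mem_zmultiples_iff hord).mp (hst σ)
  refine ⟨c, hc, ?_⟩
  have hmem : p ^ k • g ∈ I.N := by
    rw [mz2c_N_eq I hord hN]
    exact AddSubgroup.mem_zmultiples _
  have h1 : σ • (p ^ k • g) = ExtCitation.cycloExp p σ • (p ^ k • g) := I.N_cyclo σ _ hmem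
  rw [mz2c_smul_nsmul, hc, smul_comm] at h1
  have h2 := nsmul_eq_nsmul_iff_modEq.mp h1
  rwa [mz2c_addOrderOf_pow_smul hord] at h2

theorem mz2c_natCast_ne_zero (hp5 : 5 ≤ p) {n : ℕ} (h0 : 0 < n) (h4 : n ≤ 4) :
    (n : ZMod p) ≠ 0 := by
  intro h
  have := Nat.le_of_dvd h0 ((ZMod.natCast_eq_zero_iff n p).mp h)
  omega

/-- (T5) ⇒ a stable cyclic `⟨g⟩ ⊇ N` is toric at `2` and `3` -/
theorem mz2c_toric_small (hp5 : 5 ≤ p) (hord : addOrderOf g = p ^ (k + 1))
    (hst : ∀ σ : GQ, σ • g ∈ AddSubgroup.zmultiples g) (hN : I.N ≤ AddSubgroup.zmultiples g) :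
    ∀ r : ℕ, r = 2 ∨ r = 3 → ∀ A : ValuationSubring Qb, A.LiesOverPrime r → g ∈ I.T0 A := by
  intro r hr A hA
  obtain ⟨σ, hσr, hσ⟩ := I.t0_frob r hr A hA
  obtain ⟨c, hc, hcmod⟩ := mz2c_exists_char I hord hst hN σ
  have hcr : (c : ZMod p) = (r : ZMod p) := by
    rw [← hσr]
    exact (ZMod.natCast_eq_natCast_iff _ _ _).mpr hcmod
  have hpg : p ^ (k + 1) • g ∈ I.T0 A := by
    rw [← hord, addOrderOf_nsmul_eq_zero]
    exact AddSubgroup.zero_mem _
  rcases hσ (k + 1) g (mz2c_mem_tor_of_order hord) with h | h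
  · -- `(c - 1) g ∈ T0`
    have h1 : ((c : ℤ) - 1) • g ∈ I.T0 A := by
      rw [sub_smul, natCast_zsmul, one_smul, ← hc]
      exact h
    refine mz2c_mem_of_zsmul_mem hpg ?_ h1
    intro hdvd
    have h2 := (ZMod.intCast_zmod_eq_zero_iff_dvd ((c : ℤ) - 1) p).mpr hdvd
    push_cast at h2
    rw [hcr] at h2
    rcases hr with rfl | rfl
    · have h3 : ((1 : ℕ) : ZMod p) = 0 := by
        rw [← h2]
        push_cast
        ring
      exact mz2c_natCast_ne_zero hp5 (by norm_num) (by norm_num) h3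
    · have h3 : ((2 : ℕ) : ZMod p) = 0 := by
        rw [← h2]
        push_cast
        ring
      exact mz2c_natCast_ne_zero hp5 (by norm_num) (by norm_num) h3
  · -- `(c + 1) g ∈ T0`
    have h1 : ((c : ℤ) + 1) • g ∈ I.T0 A := by
      rw [add_smul, natCast_zsmul, one_smul, ← hc]
      exact h
    refine mz2c_mem_of_zsmul_mem hpg ?_ h1
    intro hdvd
    have h2 := (ZMod.intCast_zmod_eq_zero_iff_dvd ((c : ℤ) + 1) p).mpr hdvd
    push_cast at h2
    rw [hcr] at h2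
    rcases hr with rfl | rfl
    · have h3 : ((3 : ℕ) : ZMod p) = 0 := by
        rw [← h2]
        push_cast
        ring
      exact mz2c_natCast_ne_zero hp5 (by norm_num) (by norm_num) h3
    · have h3 : ((4 : ℕ) : ZMod p) = 0 := by
        rw [← h2]
        push_cast
        ring
      exact mz2c_natCast_ne_zero hp5 (by norm_num) (by norm_num) h3

end Char

/-- the state of the induction: `⟨g⟩ = N_(k+1)` -/
structure Mz2cLevel (I : Mz2cInput p T) (k : ℕ) (g : T) : Prop where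
  order : addOrderOf g = p ^ (k + 1)
  stable : ∀ σ : GQ, σ • g ∈ AddSubgroup.zmultiples g
  N_le : I.N ≤ AddSubgroup.zmultiples g
  toric : ∀ ℓ : ℕ, ℓ.Prime → ℓ ≠ p → ∀ A : ValuationSubring Qb, A.LiesOverPrime ℓ → g ∈ I.T0 A
  atp : ∀ A : ValuationSubring Qb, A.LiesOverPrime p →
    AddSubgroup.zmultiples g = I.T1 A ⊓ mz2cTor T p (k + 1)

section Level

variable {I : Mz2cInput p T} {k : ℕ} {g : T}

theorem Mz2cLevel.mem_tor (L : Mz2cLevel I k g) : g ∈ mz2cTor T p (k + 1) :=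
  mz2c_mem_tor_of_order L.order

theorem Mz2cLevel.le_tor (L : Mz2cLevel I k g) : AddSubgroup.zmultiples g ≤ mz2cTor T p (k + 1) :=
  mz2c_zmultiples_le_tor L.order

theorem Mz2cLevel.smul_mem (L : Mz2cLevel I k g) (σ : GQ) {x : T}
    (hx : x ∈ AddSubgroup.zmultiples g) : σ • x ∈ AddSubgroup.zmultiples g :=
  mz2c_smul_mem_zmultiples (L.stable σ) hx

/-- `N = ⟨p^k g⟩` -/
theorem Mz2cLevel.N_eq (L : Mz2cLevel I k g) : I.N = AddSubgroup.zmultiples (p ^ k • g) :=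
  mz2c_N_eq I L.order L.N_le

/-- the character of `G_ℚ` on `⟨g⟩` is congruent to the cyclotomic character mod `p` -/
theorem Mz2cLevel.exists_char (L : Mz2cLevel I k g) (σ : GQ) :
    ∃ c : ℕ, σ • g = c • g ∧ c ≡ ExtCitation.cycloExp p σ [MOD p] :=
  mz2c_exists_char I L.order L.stable L.N_le σ

/-- the subgroup `⟨g⟩` is toric at every place over `ℓ ≠ p` -/
theorem Mz2cLevel.le_T0 (L : Mz2cLevel I k g) {ℓ : ℕ} (hℓ : ℓ.Prime) (hℓp : ℓ ≠ p)
    {A : ValuationSubring Qb} (hA : A.LiesOverPrime ℓ) : AddSubgroup.zmultiples g ≤ I.T0 A := by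
  rw [AddSubgroup.zmultiples_le]
  exact L.toric ℓ hℓ hℓp A hA

/-- at a bad place the `p`-torsion of the identity component is `N` -/
theorem Mz2cLevel.T0_tor_one (L : Mz2cLevel I k g) {ℓ : ℕ} (hℓ : ℓ.Prime) (hℓp : ℓ ≠ p)
    {A : ValuationSubring Qb} (hA : A.LiesOverPrime ℓ)
    (hsmall : Nat.card ↥(I.T0 A ⊓ mz2cTor T p 1) ≤ p) : I.T0 A ⊓ mz2cTor T p 1 = I.N := by
  have hle : I.N ≤ I.T0 A ⊓ mz2cTor T p 1 :=
    le_inf (L.N_le.trans (L.le_T0 hℓ hℓp hA)) I.N_le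
  haveI : Finite ↥(I.T0 A ⊓ mz2cTor T p 1) := mz2c_finite_of_le I inf_le_right
  exact (AddSubgroup.eq_of_le_of_card_ge hle (by rw [I.N_card]; exact hsmall)).symm

/-- at a bad place the `p^j`-torsion of the identity component lies in `⟨g⟩`, `j ≤ k + 1` -/
theorem Mz2cLevel.T0_tor_le (L : Mz2cLevel I k g) {ℓ : ℕ} (hℓ : ℓ.Prime) (hℓp : ℓ ≠ p)
    {A : ValuationSubring Qb} (hA : A.LiesOverPrime ℓ)
    (hsmall : Nat.card ↥(I.T0 A ⊓ mz2cTor T p 1) ≤ p) :
    ∀ j : ℕ, j ≤ k + 1 → I.T0 A ⊓ mz2cTor T p j ≤ AddSubgroup.zmultiples g := by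
  intro j
  induction j with
  | zero =>
    intro _ x hx
    rw [mz2cTor_zero, inf_bot_eq, AddSubgroup.mem_bot] at hx
    rw [hx]
    exact AddSubgroup.zero_mem _
  | succ j ih =>
    intro hj x hx
    have hpx : p • x ∈ AddSubgroup.zmultiples g :=
      ih (by omega) ⟨(I.T0 A).nsmul_mem hx.1 p, mem_mz2cTor_succ.mp hx.2⟩
    obtain ⟨z, hz, hpz⟩ := mz2c_exists_smul_of_mem_tor L.order (by omega : j < k + 1) hpx
      (mem_mz2cTor_succ.mp hx.2)
    have h0 : x - z ∈ mz2cTor T p 1 := by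
      rw [mem_mz2cTor_one, smul_sub, hpz, sub_self]
    have h1 : x - z ∈ I.T0 A ⊓ mz2cTor T p 1 :=
      ⟨(I.T0 A).sub_mem hx.1 (L.le_T0 hℓ hℓp hA hz), h0⟩
    rw [L.T0_tor_one hℓ hℓp hA hsmall] at h1
    have : x = (x - z) + z := by abel
    rw [this]
    exact AddSubgroup.add_mem _ (L.N_le h1) hz

/-- inertia at `ℓ ≠ p` acts trivially on `T[p^(k+1)] / ⟨g⟩` -/
theorem Mz2cLevel.inertia_quot (L : Mz2cLevel I k g) {ℓ : ℕ} (hℓ : ℓ.Prime) (hℓp : ℓ ≠ p)
    {A : ValuationSubring Qb} (hA : A.LiesOverPrime ℓ) {σ : GQ} (hσ : σ ∈ A.inertiaSubgroupIn ℚ)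
    {x : T} (hx : x ∈ mz2cTor T p (k + 1)) : σ • x - x ∈ AddSubgroup.zmultiples g := by
  rcases I.t0_small ℓ hℓ hℓp A hA with htop | hsmall
  · have hxT : x ∈ I.T0 A := by rw [htop]; exact AddSubgroup.mem_top x
    rw [I.t0_inert ℓ hℓ hℓp A hA σ hσ (k + 1) x hxT hx, sub_self]
    exact AddSubgroup.zero_mem _
  · refine L.T0_tor_le hℓ hℓp hA hsmall (k + 1) le_rfl ⟨I.t0_quot ℓ hℓ hℓp A hA σ hσ (k + 1) x hx, ?_⟩
    exact AddSubgroup.sub_mem _ (mz2c_smul_mem_tor σ hx) hx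

/-- inertia at `ℓ ≠ p` acts trivially on `p⁻¹⟨g⟩ / ⟨g⟩` -/
theorem Mz2cLevel.inertia_quot' (L : Mz2cLevel I k g) {ℓ : ℕ} (hℓ : ℓ.Prime) (hℓp : ℓ ≠ p)
    {A : ValuationSubring Qb} (hA : A.LiesOverPrime ℓ) {σ : GQ} (hσ : σ ∈ A.inertiaSubgroupIn ℚ)
    {x : T} (hx : p • x ∈ AddSubgroup.zmultiples g) : σ • x - x ∈ AddSubgroup.zmultiples g := by
  have hx2 : x ∈ mz2cTor T p (k + 2) := mem_mz2cTor_succ.mpr (L.le_tor hx)
  rcases I.t0_small ℓ hℓ hℓp A hA with htop | hsmall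
  · have hxT : x ∈ I.T0 A := by rw [htop]; exact AddSubgroup.mem_top x
    rw [I.t0_inert ℓ hℓ hℓp A hA σ hσ (k + 2) x hxT hx2, sub_self]
    exact AddSubgroup.zero_mem _
  · have h1 : σ • x - x ∈ I.T0 A := I.t0_quot ℓ hℓ hℓp A hA σ hσ (k + 2) x hx2
    have h2 : p • (σ • x - x) = 0 := by
      rw [smul_sub, ← mz2c_smul_nsmul,
        I.t0_inert ℓ hℓ hℓp A hA σ hσ (k + 1) (p • x) (L.le_T0 hℓ hℓp hA hx) (L.le_tor hx), sub_self]
    have h3 : σ • x - x ∈ I.T0 A ⊓ mz2cTor T p 1 := ⟨h1, mem_mz2cTor_one.mpr h2⟩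
    rw [L.T0_tor_one hℓ hℓp hA hsmall] at h3
    exact L.N_le h3

/-- inertia at `p` acts trivially on `T[p^(k+1)] / ⟨g⟩` -/
theorem Mz2cLevel.inertia_quot_p (L : Mz2cLevel I k g) {A : ValuationSubring Qb}
    (hA : A.LiesOverPrime p) {σ : GQ} (hσ : σ ∈ A.inertiaSubgroupIn ℚ)
    {x : T} (hx : x ∈ mz2cTor T p (k + 1)) : σ • x - x ∈ AddSubgroup.zmultiples g := by
  rw [L.atp A hA]
  exact ⟨I.t1_quot A hA σ hσ (k + 1) x hx, AddSubgroup.sub_mem _ (mz2c_smul_mem_tor σ hx) hx⟩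

/-- **Minkowski** ⇒ `G_ℚ` acts trivially on `T[p^(k+1)] / ⟨g⟩` -/
theorem Mz2cLevel.cofixed (L : Mz2cLevel I k g) (hMink : Mz2cMink p)
    (hAp : ∃ A : ValuationSubring Qb, A.LiesOverPrime p) :
    ∀ σ : GQ, ∀ x ∈ mz2cTor T p (k + 1), σ • x - x ∈ AddSubgroup.zmultiples g := by
  let H : Subgroup GQ :=
    { carrier := {σ | ∀ x ∈ mz2cTor T p (k + 1), σ • x - x ∈ AddSubgroup.zmultiples g}
      one_mem' := fun x _ => by
        rw [one_smul, sub_self]
        exact AddSubgroup.zero_mem _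
      mul_mem' := fun {a b} ha hb x hx => by
        have h1 : (a * b) • x - x = a • (b • x - x) + (a • x - x) := by
          rw [mul_smul, smul_sub]
          abel
        rw [h1]
        exact AddSubgroup.add_mem _ (L.smul_mem a (hb x hx)) (ha x hx)
      inv_mem' := fun {a} ha x hx => by
        have h1 := ha (a⁻¹ • x) (mz2c_smul_mem_tor a⁻¹ hx)
        rw [smul_inv_smul] at h1
        have h2 : a⁻¹ • x - x = -(x - a⁻¹ • x) := by abel
        rw [h2]
        exact AddSubgroup.neg_mem _ h1 }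
  have hmemH : ∀ σ : GQ, σ ∈ H ↔
      ∀ x ∈ mz2cTor T p (k + 1), σ • x - x ∈ AddSubgroup.zmultiples g := fun σ => Iff.rfl
  haveI hnormal : H.Normal := by
    refine ⟨fun n hn τ => ?_⟩
    rw [hmemH]
    intro x hx
    have h1 : (τ * n * τ⁻¹) • x - x = τ • (n • (τ⁻¹ • x) - τ⁻¹ • x) := by
      rw [mul_smul, mul_smul, smul_sub, smul_inv_smul]
    rw [h1]
    exact L.smul_mem τ (hn _ (mz2c_smul_mem_tor τ⁻¹ hx))
  have hopen : IsOpen (H : Set GQ) := by
    apply Subgroup.isOpen_of_mem_nhds (g := 1)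
    haveI := mz2c_finite_tor I (k + 1)
    have hopen' : IsOpen (⋂ x : ↥(mz2cTor T p (k + 1)), {σ : GQ | σ • (x : T) = x}) :=
      isOpen_iInter_of_finite fun x => I.open_stab (k + 1) x x.2
    have h1 : (1 : GQ) ∈ ⋂ x : ↥(mz2cTor T p (k + 1)), {σ : GQ | σ • (x : T) = x} := by
      rw [Set.mem_iInter]
      intro x
      exact one_smul _ _
    refine Filter.mem_of_superset (hopen'.mem_nhds h1) ?_
    intro σ hσ x hx
    rw [Set.mem_iInter] at hσ
    have h2 : σ • x = x := hσ ⟨x, hx⟩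
    rw [h2, sub_self]
    exact AddSubgroup.zero_mem _
  obtain ⟨A₀, hA₀⟩ := hAp
  have htop : H = ⊤ := hMink H hopen
    (fun q hq hqp A hA σ hσ => (hmemH σ).mpr fun x hx => L.inertia_quot hq hqp hA hσ hx)
    A₀ hA₀ (fun σ hσ => (hmemH σ).mpr fun x hx => L.inertia_quot_p hA₀ hσ hx)
  intro σ
  have hσ : σ ∈ H := by
    rw [htop]
    exact Subgroup.mem_top σ
  exact (hmemH σ).mp hσ

end Level

section Base

variable (I : Mz2cInput p T)

/-- **the base case**: `N = ⟨g⟩` is the first level of the chain -/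
theorem mz2c_base (hp5 : 5 ≤ p) : ∃ g : T, Mz2cLevel I 0 g := by
  have hp0 : p ≠ 0 := hp.out.ne_zero
  haveI hfinN : Finite ↥I.N := Nat.finite_of_card_ne_zero (by rw [I.N_card]; exact hp0)
  -- a generator
  have hnontriv : ∃ g ∈ I.N, g ≠ 0 := by
    by_contra hcon
    push Not at hcon
    have h1 : I.N = ⊥ := by
      rw [AddSubgroup.eq_bot_iff_forall]
      exact hcon
    have h2 := I.N_card
    rw [h1, AddSubgroup.card_bot] at h2
    have := hp.out.two_le
    omega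
  obtain ⟨g, hgN, hg0⟩ := hnontriv
  have hpg : p • g = 0 := mem_mz2cTor_one.mp (I.N_le hgN)
  have hord : addOrderOf g = p ^ (0 + 1) := by
    rw [zero_add, pow_one]
    exact addOrderOf_eq_prime hpg hg0
  have hle : AddSubgroup.zmultiples g ≤ I.N := by
    rw [AddSubgroup.zmultiples_le]
    exact hgN
  have heq : AddSubgroup.zmultiples g = I.N := by
    refine AddSubgroup.eq_of_le_of_card_ge hle ?_
    rw [I.N_card, mz2c_card_zmultiples hord, zero_add, pow_one]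
  have hst : ∀ σ : GQ, σ • g ∈ AddSubgroup.zmultiples g := by
    intro σ
    rw [heq]
    exact I.N_stable σ hgN
  have hN : I.N ≤ AddSubgroup.zmultiples g := heq.ge
  have h23 := mz2c_toric_small I hp5 hord hst hN
  refine ⟨g, hord, hst, hN, ?_, ?_⟩
  · -- toric
    refine I.mazur 0 g hord hst hN ?_ ?_ h23
    · intro ℓ hℓ hℓp A hA
      rw [hpg]
      exact AddSubgroup.zero_mem _
    · intro σ x hx
      rw [mz2cTor_zero, AddSubgroup.mem_bot] at hx
      rw [hx, smul_zero, sub_self]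
      exact AddSubgroup.zero_mem _
  · -- at `p`
    intro A hA
    obtain ⟨σ, hσ, hσ1⟩ := I.t1_cyclo A hA
    have hgT1 : g ∈ I.T1 A := by
      have h1 : σ • g - g ∈ I.T1 A := I.t1_quot A hA σ hσ 1 g (I.N_le hgN)
      rw [I.N_cyclo σ g hgN] at h1
      have h2 : ((ExtCitation.cycloExp p σ : ℤ) - 1) • g ∈ I.T1 A := by
        rw [sub_smul, natCast_zsmul, one_smul]
        exact h1
      have hpg' : p ^ 1 • g ∈ I.T1 A := by
        rw [pow_one, hpg]
        exact AddSubgroup.zero_mem _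
      refine mz2c_mem_of_zsmul_mem hpg' ?_ h2
      intro hdvd
      have h3 := (ZMod.intCast_zmod_eq_zero_iff_dvd _ p).mpr hdvd
      push_cast at h3
      exact hσ1 (sub_eq_zero.mp h3)
    have hle2 : AddSubgroup.zmultiples g ≤ I.T1 A ⊓ mz2cTor T p (0 + 1) := by
      rw [AddSubgroup.zmultiples_le]
      exact ⟨hgT1, I.N_le hgN⟩
    haveI : Finite ↥(I.T1 A ⊓ mz2cTor T p (0 + 1)) := mz2c_finite_of_le I inf_le_right
    refine AddSubgroup.eq_of_le_of_card_ge hle2 ?_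
    rw [mz2c_card_zmultiples hord, zero_add, pow_one]
    exact I.t1_small A hA

end Base

end Fermat.Agent.Mazur2
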